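import Fermat.Agent.ClassField.Idele.Basic
import Mathlib.FieldTheory.Galois.Infinite

/-!
# S55 bridge: Hilbert 90 through an embedding of the algebraic numbers
-/

set_option autoImplicit false

noncomputable section

namespace Fermat.Agent.ClassField.S55

open Idele IntermediateField

local notation "Qb" => AlgebraicClosure ℚ
local notation "Γ" => (AlgebraicClosure ℚ ≃ₐ[ℚ] AlgebraicClosure ℚ)

/-- Hilbert 90: a multiplicative crossed homomorphism on a group acting on a field `L`, which
factors through the action on a number field `N` embedded in `L`, is a coboundary. -/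
theorem exists_hilbert90 {H L : Type*} [Group H] [Field L] [MulSemiringAction H L]
    (φ : H →* Γ) (ι : Qb →+* L) (hι : ∀ (h : H) (x : Qb), h • ι x = ι (φ h x))
    (N : IntermediateField ℚ Qb) [FiniteDimensional ℚ N] [Normal ℚ N]
    (a : H → L) (ha0 : ∀ h, a h ≠ 0) (hcoc : ∀ g h, a (g * h) = g • a h * a g)
    (hlev : ∀ g s, φ s ∈ N.fixingSubgroup → a (g * s) = a g) :
    ∃ x : L, x ≠ 0 ∧ ∀ g, a g = g • x / x := by
  classical
  let res : H →* (N ≃ₐ[ℚ] N) := (AlgEquiv.restrictNormalHom N).comp φ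
  let G : Subgroup (N ≃ₐ[ℚ] N) := res.range
  have hlift : ∀ γ : G, ∃ h, res h = γ := fun γ => γ.2
  choose lift hlift using hlift
  have hres : ∀ (h : H) (x : N), ((res h x : N) : Qb) = φ h x := fun h x =>
    AlgEquiv.restrictNormal_commutes (φ h) N x
  have key : ∀ g h : H, res g = res h → a g = a h := by
    intro g h e
    have hmem : φ (g⁻¹ * h) ∈ N.fixingSubgroup := by
      rw [IntermediateField.mem_fixingSubgroup_iff]
      intro x hx
      have h1 : res (g⁻¹ * h) = 1 := by rw [map_mul, map_inv, e, inv_mul_cancel]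
      have h2 := hres (g⁻¹ * h) ⟨x, hx⟩
      rw [h1] at h2
      exact h2.symm
    have := hlev g (g⁻¹ * h) hmem
    rw [mul_inv_cancel_left] at this
    exact this.symm
  let ψ : G → (N →* L) := fun γ =>
    (ι.comp (N.val : N →+* Qb)).toMonoidHom.comp ((γ : N ≃ₐ[ℚ] N) : N →* N)
  have hψ : Function.Injective ψ := fun γ δ e => Subtype.ext (AlgEquiv.ext fun x => Subtype.ext
    (ι.injective (DFunLike.congr_fun e x)))
  have hli := (linearIndependent_monoidHom N L).comp ψ hψ
  obtain ⟨z, hz⟩ : ∃ z : N, ∑ γ : G, a (lift γ) * ψ γ z ≠ 0 := by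
    by_contra! hcon
    have := Fintype.linearIndependent_iff.mp hli (fun γ => a (lift γ))
      (funext fun z => by simpa [Finset.sum_apply] using hcon z) 1
    exact ha0 _ this
  refine ⟨(∑ γ : G, a (lift γ) * ψ γ z)⁻¹, inv_ne_zero hz, fun g => ?_⟩
  let γg : G := ⟨res g, g, rfl⟩
  have hg0 := ha0 g
  have hsum : g • ∑ γ : G, a (lift γ) * ψ γ z = (a g)⁻¹ * ∑ γ : G, a (lift γ) * ψ γ z := by
    rw [Finset.smul_sum, Finset.mul_sum]
    refine Fintype.sum_equiv (Equiv.mulLeft γg) _ _ fun γ => ?_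
    rw [Equiv.coe_mulLeft, smul_mul']
    have h1 : a (lift (γg * γ)) = g • a (lift γ) * a g := by
      rw [← hcoc]
      exact key _ _ (by rw [map_mul, hlift, hlift]; rfl)
    have h2 : ψ (γg * γ) z = g • ψ γ z := by
      show ι (((res g) ((γ : N ≃ₐ[ℚ] N) z) : N) : Qb) = g • ι (((γ : N ≃ₐ[ℚ] N) z : N) : Qb)
      rw [hι, hres]
    rw [h1, h2]
    field_simp
  rw [smul_inv'', hsum]
  field_simp

end Fermat.Agent.ClassField.S55
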