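import Fermat.Agent.ClassField.S55.Bridge.Modules
import Fermat.Agent.ClassField.S55.Bridge.H90
import Fermat.Agent.ClassField.Idele.LocalFields
import Fermat.Agent.ClassField.UnitsAction

/-!
# S55 bridge: localisation of ideles supported on `S`

An idele supported on `S` is the family, for `q ∈ S`, of the functions
`σ ↦ (value at emb0 q ∘ σ)`: an equivariant map `Γ → (local units)` invariant under some level.
-/

set_option autoImplicit false

noncomputable section

open scoped Fermat.Agent.ClassField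

namespace Fermat.Agent.ClassField.S55

open Idele IntermediateField

local notation "Qb" => AlgebraicClosure ℚ
local notation "Γ" => (AlgebraicClosure ℚ ≃ₐ[ℚ] AlgebraicClosure ℚ)

/-- Local units, additively. -/
abbrev LUnits (q : Nat.Primes) : Type := Additive (PadicAlgCl (q : ℕ))ˣ

/-- The localisation homomorphism at `q`. -/
def locHom (q : Nat.Primes) : LocalGal q →* Γ := localGaloisToGlobal (q : ℕ)

theorem emb0_locHom (q : Nat.Primes) (τ : LocalGal q) (x : Qb) :
    emb0 q (locHom q τ x) = τ (emb0 q x) :=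
  padicEmbedding_localGaloisToGlobal (q : ℕ) τ x

theorem globalComp_locHom_mul (q : Nat.Primes) (τ : LocalGal q) (σ : Γ) :
    globalComp (emb0 q) (locHom q τ * σ) = localComp τ (globalComp (emb0 q) σ) :=
  AlgHom.ext fun x => emb0_locHom q τ (σ x)

theorem globalComp_injective (q : Nat.Primes) : Function.Injective (globalComp (emb0 q)) :=
  fun _ _ h => AlgEquiv.ext fun x => (emb0 q).toRingHom.injective (AlgHom.congr_fun h x)

theorem globalComp_surjective (q : Nat.Primes) : Function.Surjective (globalComp (emb0 q)) :=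
  fun ι => Idele.exists_globalComp_eq (emb0 q) ι

variable {S : Finset Nat.Primes}

/-- The component of an idele at the embedding `emb0 q ∘ σ`. -/
def compAt (q : Nat.Primes) (σ : Γ) : JMod S →+ LUnits q where
  toFun j := Additive.ofMul (((j.toMul : sIdeles S) : IdeleGroup).1 q (globalComp (emb0 q) σ))
  map_zero' := rfl
  map_add' _ _ := rfl

theorem compAt_smul (q : Nat.Primes) (σ g : Γ) (j : JMod S) :
    compAt q σ (g • j) = compAt q (σ * g) j := by
  show Additive.ofMul ((((j.toMul : sIdeles S) : IdeleGroup) : Raw) q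
    (globalComp (globalComp (emb0 q) σ) g)) = _
  rw [← globalComp_mul]
  rfl

theorem compAt_locHom_mul (q : Nat.Primes) (τ : LocalGal q) (σ : Γ) (j : JMod S) :
    compAt q (locHom q τ * σ) j = τ • compAt q σ j := by
  refine Additive.toMul.injective (Units.ext ?_)
  show (((j.toMul : sIdeles S) : IdeleGroup).1 q (globalComp (emb0 q) (locHom q τ * σ)) :
    PadicAlgCl (q : ℕ)) = _
  rw [globalComp_locHom_mul]
  exact ((j.toMul : sIdeles S) : IdeleGroup).2.1 q τ _

/-- Two ideles supported on `S` with the same components are equal. -/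
theorem jmod_ext {j j' : JMod S} (h : ∀ q ∈ S, ∀ σ, compAt q σ j = compAt q σ j') : j = j' := by
  refine Additive.toMul.injective (Subtype.ext (Subtype.ext (Raw.ext fun q ι => ?_)))
  by_cases hq : q ∈ S
  · obtain ⟨σ, rfl⟩ := globalComp_surjective q ι
    exact Additive.ofMul.injective (h q hq σ)
  · exact ((j.toMul : sIdeles S).2.2 q hq ι).trans ((j'.toMul : sIdeles S).2.2 q hq ι).symm

theorem compAt_diag {q : Nat.Primes} (hq : q ∈ S) (σ : Γ) (e : EMod S) :
    ((compAt q σ (diagA S e)).toMul : (PadicAlgCl (q : ℕ))ˣ).1 =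
      emb0 q (σ ((e.toMul : sUnits S).1 : Qb)) :=
  diag_apply_of_mem e.toMul hq _

/-- An idele supported on `S` with prescribed components. -/
theorem exists_jmod (φ : ∀ q : Nat.Primes, Γ → LUnits q)
    (heq : ∀ q ∈ S, ∀ (τ : LocalGal q) (σ : Γ), φ q (locHom q τ * σ) = τ • φ q σ)
    (U : Subgroup Γ) (hU : U ∈ (levels S).carrier)
    (hinv : ∀ q ∈ S, ∀ σ : Γ, ∀ u ∈ U, φ q (σ * u) = φ q σ) :
    ∃ j : JMod S, (∀ u ∈ U, u • j = j) ∧ ∀ q ∈ S, ∀ σ, compAt q σ j = φ q σ := by
  classical
  choose inv hinv' using globalComp_surjective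
  have hinvσ : ∀ q σ, inv q (globalComp (emb0 q) σ) = σ := fun q σ =>
    globalComp_injective q (hinv' q _)
  let raw : Raw := fun q ι => if q ∈ S then (φ q (inv q ι)).toMul else 1
  have hfix : ∀ u ∈ U, u • raw = raw := by
    intro u hu
    refine Raw.ext fun q ι => ?_
    obtain ⟨σ, rfl⟩ := globalComp_surjective q ι
    show (if q ∈ S then (φ q (inv q (globalComp (globalComp (emb0 q) σ) u))).toMul else 1) =
      if q ∈ S then (φ q (inv q (globalComp (emb0 q) σ))).toMul else 1
    split
    · rw [← globalComp_mul, hinvσ, hinvσ, hinv q ‹_› σ u hu]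
    · rfl
  have hequiv : IsEquivariant raw := by
    intro q τ ι
    obtain ⟨σ, rfl⟩ := globalComp_surjective q ι
    show ((if q ∈ S then (φ q (inv q (localComp τ (globalComp (emb0 q) σ)))).toMul else 1 :
      (PadicAlgCl (q : ℕ))ˣ) : PadicAlgCl (q : ℕ)) =
      τ ((if q ∈ S then (φ q (inv q (globalComp (emb0 q) σ))).toMul else 1 :
        (PadicAlgCl (q : ℕ))ˣ) : PadicAlgCl (q : ℕ))
    split
    · rw [← globalComp_locHom_mul, hinvσ, hinvσ, heq q ‹_› τ σ]
      rfl
    · exact (map_one τ).symm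
  obtain ⟨F, hF, hn, hFU⟩ := hU
  -- norm one at almost all primes
  have hmem : raw ∈ ideles := ⟨hequiv, ⟨F, hF.1, fun s hs => hfix s (hFU ▸ hs)⟩,
    ⟨S, fun q hq ι => by
      show ‖((if q ∈ S then (φ q (inv q ι)).toMul else 1 : (PadicAlgCl (q : ℕ))ˣ) :
        PadicAlgCl (q : ℕ))‖ = 1
      rw [if_neg hq]
      exact norm_one⟩⟩
  have hU' : U ∈ (levels S).carrier := ⟨F, hF, hn, hFU⟩
  have hs : (⟨raw, hmem⟩ : IdeleGroup) ∈ sIdeles S :=
    ⟨⟨U, hU', fun s hs => Subtype.ext (hfix s hs)⟩, fun q hq ι => if_neg hq⟩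
  refine ⟨Additive.ofMul ⟨_, hs⟩, fun u hu =>
    congrArg Additive.ofMul (Subtype.ext (Subtype.ext (hfix u hu))), fun q hq σ => ?_⟩
  show Additive.ofMul (if q ∈ S then (φ q (inv q (globalComp (emb0 q) σ))).toMul else 1) = φ q σ
  rw [if_pos hq, hinvσ]
  rfl

/-- Hilbert 90 for the local units, on any group mapping to the local Galois group. -/
theorem exists_d0_local (q : Nat.Primes) {H : Type*} [Group H] (i : H →* LocalGal q)
    (N : IntermediateField ℚ Qb) [FiniteDimensional ℚ N] [Normal ℚ N] (a : H → LUnits q)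
    (hcoc : ∀ g h, a (g * h) = i g • a h + a g)
    (hlev : ∀ g s, locHom q (i s) ∈ N.fixingSubgroup → a (g * s) = a g) :
    ∃ x : LUnits q, ∀ g, i g • x - x = a g := by
  letI : MulSemiringAction H (PadicAlgCl (q : ℕ)) := MulSemiringAction.compHom _ i
  obtain ⟨x, hx0, hx⟩ := exists_hilbert90 ((locHom q).comp i) (emb0 q).toRingHom
    (fun h y => (emb0_locHom q (i h) y).symm) N (fun g => ((a g).toMul : PadicAlgCl (q : ℕ)))
    (fun g => Units.ne_zero _) (fun g h => by rw [hcoc]; rfl) (fun g s hs => by rw [hlev g s hs])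
  refine ⟨Additive.ofMul (Units.mk0 x hx0), fun g => ?_⟩
  refine Additive.toMul.injective (Units.ext ?_)
  rw [toMul_sub, toMul_ofMul, Units.val_div_eq_div_val]
  exact (hx g).symm

end Fermat.Agent.ClassField.S55
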