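import Fermat.Agent.ClassField.S55.CHom

/-!
# S55 bridge: cochains with values in homomorphisms from a permutation module

* `exists_d0_eq_of_stabilizer`: Shapiro's lemma in degree one.
* `exists_extend`: extension of homomorphisms to a `p`-divisible group.
-/

set_option autoImplicit false

noncomputable section

namespace Fermat.Agent.ClassField.S55

section Shapiro

variable {G Y X P : Type*} [Group G] [MulAction G Y] [AddCommGroup X] [DistribMulAction G X]
  [AddCommGroup P] [DistribMulAction G P]

/-- A one-cocycle with values in `CHom P X`, `P` a permutation module, is a coboundary as soon as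
its restrictions to the stabilisers of the basis are. -/
theorem exists_d0_eq_of_stabilizer (e : Module.Basis Y ℤ P) (he : ∀ (g : G) y, g • e y = e (g • y))
    (f : G → CHom P X) (hf : d1 f = 0)
    (hst : ∀ y : Y, ∃ x : X, ∀ u : G, u • y = y → u • x - x = f u (e y)) :
    ∃ Φ : CHom P X, d0 Φ = f := by
  classical
  choose x hx using hst
  let r : Y → Y := fun y => Quotient.out (s := MulAction.orbitRel G Y) (Quotient.mk _ y)
  have hr : ∀ y, ∃ g : G, g • r y = y := fun y => by
    have h : r y ∈ MulAction.orbit G y :=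
      (MulAction.orbitRel_apply).mp (Quotient.mk_out (s := MulAction.orbitRel G Y) y)
    obtain ⟨g, hg⟩ := h
    exact ⟨g⁻¹, by rw [← hg, inv_smul_smul]⟩
  choose t ht using hr
  have hrinv : ∀ (g : G) y, r (g • y) = r y := fun g y =>
    congrArg Quotient.out (Quotient.sound (s := MulAction.orbitRel G Y)
      ((MulAction.orbitRel_apply).mpr (MulAction.mem_orbit y g)))
  have hcoc : ∀ (g h : G) (v : P), f (g * h) v = g • f h (g⁻¹ • v) + f g v := by
    intro g h v
    have h1 := congrArg (fun z : CHom P X => z v) (congrFun hf (g, h))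
    simp only [d1, Pi.zero_apply, CHom.add_apply, CHom.sub_apply, CHom.smul_apply,
      CHom.zero_apply] at h1
    rw [eq_comm, ← sub_eq_zero, ← h1]
    abel
  let Φ₀ : Y → X := fun y => t y • x (r y) - f (t y) (e y)
  -- independence of the chosen element
  have hind : ∀ (g : G) y, g • r y = y → g • x (r y) - f g (e y) = Φ₀ y := by
    intro g y hg
    obtain ⟨u, rfl⟩ : ∃ u, t y * u = g := ⟨(t y)⁻¹ * g, mul_inv_cancel_left _ _⟩
    have hu : u • r y = r y := smul_left_cancel (t y) (by rw [← mul_smul, hg, ht])
    have hy : (t y)⁻¹ • e y = e (r y) := by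
      rw [he, inv_smul_eq_iff.mpr (ht y).symm]
    rw [hcoc, hy, mul_smul, ← hx (r y) u hu, smul_sub]
    simp only [Φ₀]
    abel
  refine ⟨⟨(e.constr ℤ Φ₀).toAddMonoidHom⟩, funext fun h => ?_⟩
  have hext : ∀ A B : CHom P X, (∀ y, A (e y) = B (e y)) → A = B := fun A B hAB =>
    CHom.ext' fun v => LinearMap.congr_fun
      (e.ext (f₁ := A.hom.toIntLinearMap) (f₂ := B.hom.toIntLinearMap) hAB) v
  refine hext _ _ fun y => ?_
  simp only [d0, CHom.sub_apply, CHom.smul_apply, he]
  show h • (e.constr ℤ Φ₀) (e (h⁻¹ • y)) - (e.constr ℤ Φ₀) (e y) = f h (e y)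
  rw [Module.Basis.constr_basis, Module.Basis.constr_basis]
  have h1 : (h * t (h⁻¹ • y)) • r y = y := by
    rw [mul_smul, ← hrinv h⁻¹ y, ht, smul_inv_smul]
  rw [← hind _ _ h1, hcoc, he, mul_smul]
  simp only [Φ₀, hrinv, smul_sub]
  abel

end Shapiro

section Extend

/-- Homomorphisms between groups killed by `p` extend from subgroups. -/
theorem exists_extend_of_module (p : ℕ) [Fact p.Prime] {A T : Type*} [AddCommGroup A]
    [AddCommGroup T] [Module (ZMod p) A] [Module (ZMod p) T] (B : AddSubgroup A) (g : B →+ T) :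
    ∃ G : A →+ T, ∀ b : B, G b = g b := by
  let W : Submodule (ZMod p) A :=
    { B with
      smul_mem' := fun c x hx => by
        rw [← ZMod.natCast_zmod_val c, Nat.cast_smul_eq_nsmul]
        exact B.nsmul_mem hx _ }
  let g' : ↥W →+ T := AddMonoidHom.mk' (fun w : ↥W => g ⟨w.1, w.2⟩) fun a b => by
    rw [← map_add]; rfl
  obtain ⟨G, hG⟩ := LinearMap.exists_extend (g'.toZModLinearMap p)
  exact ⟨G.toAddMonoidHom, fun b => LinearMap.congr_fun hG ⟨b.1, b.2⟩⟩

variable {P X : Type*} [AddCommGroup P] [AddCommGroup X]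

/-- Homomorphisms on a subgroup of a free group containing `p P` extend, when the target is
`p`-divisible. -/
theorem exists_extend (p : ℕ) [Fact p.Prime] {Y : Type*} (e : Module.Basis Y ℤ P)
    (R : AddSubgroup P) (hR : ∀ v : P, p • v ∈ R) (hdiv : ∀ x : X, ∃ y, p • y = x)
    (f : R →+ X) : ∃ F : P →+ X, ∀ r : R, F r = f r := by
  classical
  choose root hroot using hdiv
  let h : P →+ X := (e.constr ℤ fun y => root (f ⟨p • e y, hR _⟩)).toAddMonoidHom
  have hph : ∀ v : P, p • h v = f ⟨p • v, hR v⟩ := by
    let A : P →+ X := (DistribSMul.toAddMonoidHom X p).comp h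
    let B : P →+ X :=
      { toFun := fun v => f ⟨p • v, hR v⟩
        map_zero' := by
          convert map_zero f using 2
          exact Subtype.ext (smul_zero p)
        map_add' := fun v w => by
          rw [← map_add]
          congr 1
          exact Subtype.ext (smul_add p v w) }
    have hAB : A.toIntLinearMap = B.toIntLinearMap := e.ext fun y => by
      show p • h (e y) = f ⟨p • e y, hR _⟩
      simp only [h, LinearMap.toAddMonoidHom_coe, Module.Basis.constr_basis, hroot]
    exact fun v => LinearMap.congr_fun hAB v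
  -- the defect is `p`-torsion and kills `p • P`
  let pP : AddSubgroup P := (DistribSMul.toAddMonoidHom P p).range
  let T : AddSubgroup X := (DistribSMul.toAddMonoidHom X p).ker
  let δ : R →+ X := f - h.comp R.subtype
  have hδ : ∀ r : R, δ r ∈ T := fun r => by
    show p • (f r - h r) = 0
    rw [smul_sub, hph, ← map_nsmul, sub_eq_zero]
    exact congrArg f (Subtype.ext rfl)
  have hpP : ∀ v : P, p • v ∈ pP := fun v => ⟨v, rfl⟩
  have hT : ∀ x : T, p • x = 0 := fun x => Subtype.ext x.2
  let Rbar : AddSubgroup (P ⧸ pP) := R.map (QuotientAddGroup.mk' pP)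
  let q : R →+ Rbar := (QuotientAddGroup.mk' pP).addSubgroupMap R
  have hqs : Function.Surjective q := (QuotientAddGroup.mk' pP).addSubgroupMap_surjective R
  have hker : q.ker ≤ (δ.codRestrict T hδ).ker := by
    intro r hr
    have h1 : (QuotientAddGroup.mk' pP) (r : P) = 0 :=
      congrArg Subtype.val (show q r = 0 from hr)
    obtain ⟨v, hv⟩ := (QuotientAddGroup.eq_zero_iff _).mp h1
    refine Subtype.ext ?_
    show f r - h r = 0
    rw [sub_eq_zero, ← show p • v = (r : P) from hv, map_nsmul, hph]
    exact congrArg f (Subtype.ext hv.symm)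
  let δbar : Rbar →+ T := q.liftOfSurjective hqs ⟨δ.codRestrict T hδ, hker⟩
  obtain ⟨E, hE⟩ := @exists_extend_of_module p _ _ _ _ _ (QuotientAddGroup.zmodModule hpP)
    (AddCommGroup.zmodModule hT) Rbar δbar
  refine ⟨h + T.subtype.comp (E.comp (QuotientAddGroup.mk' pP)), fun r => ?_⟩
  have h1 : E (QuotientAddGroup.mk' pP (r : P)) = δbar (q r) := hE (q r)
  have h2 : δbar (q r) = δ.codRestrict T hδ r :=
    AddMonoidHom.liftOfRightInverse_comp_apply q _ _ _ r
  show h r + (E (QuotientAddGroup.mk' pP (r : P)) : X) = f r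
  rw [h1, h2]
  show h r + (f r - h r) = f r
  abel

end Extend

end Fermat.Agent.ClassField.S55
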