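import Fermat.Agent.ClassField.S55.Bridge.Levels
import Fermat.Agent.Density.PlacesConj

/-!
# S55 bridge: `S`-units of the maximal extension unramified outside `S`

Units at every embedding outside `S` are units at every place outside `S`; roots of such units
generate extensions unramified outside `S`.
-/

set_option autoImplicit false

noncomputable section

open scoped Pointwise

namespace Fermat.Agent.ClassField.S55

open Idele IntermediateField

local notation "Qb" => AlgebraicClosure ℚ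
local notation "Γ" => (AlgebraicClosure ℚ ≃ₐ[ℚ] AlgebraicClosure ℚ)

/-- The base embedding at a prime: the one used by the frozen localisation maps. -/
def emb0 (ℓ : Nat.Primes) : Emb ℓ := padicEmbedding (ℓ : ℕ)

/-- Every place over `ℓ` contains the integral elements of some embedding over `ℓ`. -/
theorem exists_emb_of_liesOverPrime (ℓ : Nat.Primes) {A : ValuationSubring Qb}
    (hA : A.LiesOverPrime (ℓ : ℕ)) : ∃ ι : Emb ℓ, ∀ x : Qb, ‖ι x‖ ≤ 1 → x ∈ A := by
  have h0 : (padicPlace (ℓ : ℕ)).LiesOverPrime (ℓ : ℕ) := by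
    unfold ValuationSubring.LiesOverPrime
    rw [ValuationSubring.mem_nonunits_iff_exists_mem_maximalIdeal]
    refine ⟨natCast_mem _ _, fun hu => ?_⟩
    obtain ⟨⟨y, hy⟩, hy'⟩ := isUnit_iff_exists_inv.mp hu
    have h1 : ((ℓ : ℕ) : Qb) * y = 1 := congrArg Subtype.val hy'
    have h2 := congrArg (fun z => ‖padicEmbedding (ℓ : ℕ) z‖) h1
    simp only [map_mul, map_natCast, map_one, norm_mul, norm_one] at h2
    have h3 : ‖((ℓ : ℕ) : PadicAlgCl (ℓ : ℕ))‖ < 1 := by
      rw [← map_natCast (algebraMap ℚ_[(ℓ : ℕ)] (PadicAlgCl (ℓ : ℕ))), norm_algebraMap',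
        Padic.norm_p]
      exact inv_lt_one_of_one_lt₀ (Nat.one_lt_cast.2 ℓ.2.one_lt)
    have h4 : ‖padicEmbedding (ℓ : ℕ) y‖ ≤ 1 := by exact_mod_cast (mem_padicPlace_iff _).mp hy
    exact h2.not_lt (mul_lt_one_of_nonneg_of_lt_one_left (norm_nonneg _) h3 h4)
  obtain ⟨a, rfl⟩ := Density.exists_smul_eq ℓ.2 h0 hA
  refine ⟨globalComp (emb0 ℓ) a⁻¹, fun x hx => ?_⟩
  refine (ValuationSubring.mem_smul_pointwise_iff_exists _ _ _).mpr ⟨a.symm x, ?_,
    a.apply_symm_apply x⟩
  refine (mem_padicPlace_iff _).mpr ?_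
  exact_mod_cast hx

/-- An element of norm at most one at every embedding over `ℓ` lies in every place over `ℓ`. -/
theorem mem_of_forall_norm_le_one (ℓ : Nat.Primes) {A : ValuationSubring Qb}
    (hA : A.LiesOverPrime (ℓ : ℕ)) {x : Qb} (hx : ∀ ι : Emb ℓ, ‖ι x‖ ≤ 1) : x ∈ A :=
  let ⟨ι, h⟩ := exists_emb_of_liesOverPrime ℓ hA
  h x (hx ι)

variable {S : Finset Nat.Primes}

/-- Inertia outside `S` fixes the `n`-th roots of a unit of an extension unramified outside `S`,
for `n` supported in `S`. -/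
theorem apply_eq_of_mem_inertia {q : Nat.Primes} {n : ℕ} (hn : ¬ (q : ℕ) ∣ n)
    {A : ValuationSubring Qb} (hA : A.LiesOverPrime (q : ℕ)) {τ : Γ}
    (hτ : τ ∈ A.inertiaSubgroupIn ℚ) {y : Qb} (hy : y ∈ A) (hy' : y⁻¹ ∈ A) (hy0 : y ≠ 0)
    (hfix : τ (y ^ n) = y ^ n) : τ y = y := by
  obtain ⟨⟨τ', hdec⟩, hker, rfl⟩ := hτ
  change τ' (y ^ n) = y ^ n at hfix
  show τ' y = y
  rw [ValuationSubring.inertiaSubgroup, SetLike.mem_coe, MonoidHom.mem_ker] at hker
  have hres := DFunLike.congr_fun hker (IsLocalRing.residue A ⟨y, hy⟩)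
  change (⟨τ', hdec⟩ : A.decompositionSubgroup ℚ) • IsLocalRing.residue A ⟨y, hy⟩ = _ at hres
  rw [← IsLocalRing.ResidueField.residue_smul] at hres
  by_contra hne
  -- `μ = τ y / y` is a nontrivial `n`-th root of unity congruent to one
  let μ : A := ((⟨τ', hdec⟩ : A.decompositionSubgroup ℚ) • (⟨y, hy⟩ : A)) * ⟨y⁻¹, hy'⟩
  have hμv : (μ : Qb) = τ' y * y⁻¹ := rfl
  have hμ1 : (μ : Qb) ≠ 1 := by
    rw [hμv, Ne, mul_inv_eq_one₀ hy0]
    exact hne
  have hμn : μ ^ n = 1 := Subtype.ext (by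
    show (μ : Qb) ^ n = 1
    rw [hμv, mul_pow, ← map_pow, hfix, inv_pow, mul_inv_cancel₀ (pow_ne_zero _ hy0)])
  have hμres : IsLocalRing.residue A μ = 1 := by
    rw [map_mul]
    have : IsLocalRing.residue A
        ((⟨τ', hdec⟩ : A.decompositionSubgroup ℚ) • (⟨y, hy⟩ : A)) =
        IsLocalRing.residue A ⟨y, hy⟩ := hres
    rw [this, ← map_mul, show (⟨y, hy⟩ : A) * ⟨y⁻¹, hy'⟩ = 1 from
      Subtype.ext (mul_inv_cancel₀ hy0), map_one]
  have hsum : (∑ i ∈ Finset.range n, μ ^ i) = 0 := by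
    have h1 : (μ - 1) * ∑ i ∈ Finset.range n, μ ^ i = 0 := by
      rw [mul_geom_sum, hμn, sub_self]
    exact (mul_eq_zero.mp h1).resolve_left fun h => hμ1 (congrArg Subtype.val (sub_eq_zero.mp h))
  have hn0 : ((n : ℕ) : A) ∈ IsLocalRing.maximalIdeal A := by
    have h1 := congrArg (IsLocalRing.residue A) hsum
    simp only [map_sum, map_pow, hμres, one_pow, Finset.sum_const, Finset.card_range, map_zero,
      nsmul_eq_mul, mul_one] at h1
    exact (IsLocalRing.residue_eq_zero_iff _).mp (by rw [map_natCast]; exact h1)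
  refine hn ?_
  have h2 := ValuationSubring.coe_mem_nonunits_iff.mpr hn0
  have h3 : ((n : ℤ) : Qb) ∈ A.nonunits := by simpa using h2
  exact Int.natCast_dvd_natCast.mp ((Galois.intCast_mem_nonunits_iff A q.2 hA _).mp h3)

/-- An automorphism fixing a field and an element fixes the field they generate. -/
theorem apply_eq_of_mem_sup_adjoin {F : IntermediateField ℚ Qb} {τ : Γ}
    (hτ : τ ∈ F.fixingSubgroup) {y : Qb} (hy : τ y = y) : τ ∈ (F ⊔ ℚ⟮y⟯).fixingSubgroup := by
  rw [IntermediateField.mem_fixingSubgroup_iff]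
  have hle : F ⊔ ℚ⟮y⟯ ≤ fixedField (Subgroup.zpowers τ) := by
    refine sup_le (fun x hx => (mem_fixedField_iff _ _).mpr fun g hg => ?_)
      (adjoin_simple_le_iff.mpr ((mem_fixedField_iff _ _).mpr fun g hg => ?_))
    · have h1 : τ x = x :=
        (IntermediateField.mem_fixingSubgroup_iff _ _).mp hτ _ hx
      exact (Subgroup.zpowers_le.mpr (show τ ∈ MulAction.stabilizer Γ x from h1)) hg
    · exact (Subgroup.zpowers_le.mpr (show τ ∈ MulAction.stabilizer Γ y from hy)) hg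
  exact fun x hx => (mem_fixedField_iff _ _).mp (hle hx) τ (Subgroup.mem_zpowers τ)

/-- Roots of elements that are units outside `S` in an extension unramified outside `S` generate
an extension unramified outside `S`. -/
theorem isUnramifiedOutside_adjoin {F : IntermediateField ℚ Qb} (hF : F.IsUnramifiedOutside S)
    {n : ℕ} (hn0 : n ≠ 0) (hn : ∀ q : Nat.Primes, (q : ℕ) ∣ n → q ∈ S) {y : Qb} (hy0 : y ≠ 0)
    (hyF : y ^ n ∈ F) (hunit : ∀ q ∉ S, ∀ ι : Emb q, ‖ι (y ^ n)‖ = 1) :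
    (F ⊔ ℚ⟮y⟯).IsUnramifiedOutside S := by
  have := hF.1
  have : FiniteDimensional ℚ ℚ⟮y⟯ :=
    adjoin.finiteDimensional (Algebra.IsIntegral.isIntegral y)
  refine ⟨IntermediateField.finiteDimensional_sup F ℚ⟮y⟯, fun q hq A hA τ hτ => ?_⟩
  have hnorm : ∀ ι : Emb q, ‖ι y‖ = 1 := fun ι => by
    have := hunit q hq ι
    rw [map_pow, norm_pow] at this
    exact (pow_eq_one_iff_of_nonneg (norm_nonneg _) hn0).mp this
  have hy : τ y = y := by
    refine apply_eq_of_mem_inertia (fun h => hq (hn q h)) hA hτ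
      (mem_of_forall_norm_le_one q hA fun ι => (hnorm ι).le)
      (mem_of_forall_norm_le_one q hA fun ι => by rw [map_inv₀, norm_inv, hnorm ι, inv_one]) hy0 ?_
    exact (IntermediateField.mem_fixingSubgroup_iff _ _).mp (hF.2 q hq A hA hτ) _ hyF
  exact apply_eq_of_mem_sup_adjoin (hF.2 q hq A hA hτ) hy

/-- An element fixed by inertia outside `S` generates an extension unramified outside `S`. -/
theorem isUnramifiedOutside_sup_adjoin {F : IntermediateField ℚ Qb}
    (hF : F.IsUnramifiedOutside S) {y : Qb}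
    (h : ∀ q : Nat.Primes, q ∉ S → ∀ A : ValuationSubring Qb, A.LiesOverPrime (q : ℕ) →
      ∀ τ ∈ A.inertiaSubgroupIn ℚ, τ y = y) :
    (F ⊔ ℚ⟮y⟯).IsUnramifiedOutside S := by
  have := hF.1
  have : FiniteDimensional ℚ ℚ⟮y⟯ :=
    adjoin.finiteDimensional (Algebra.IsIntegral.isIntegral y)
  exact ⟨IntermediateField.finiteDimensional_sup F ℚ⟮y⟯, fun q hq A hA τ hτ =>
    apply_eq_of_mem_sup_adjoin (hF.2 q hq A hA hτ) (h q hq A hA τ hτ)⟩

end Fermat.Agent.ClassField.S55
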