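import Fermat.Agent.ClassField.S55.Bridge.Modules
import Fermat.Agent.ClassField.Idele.PlaceIdeles
import Fermat.Agent.ClassField.Idele.Level

/-!
# S55 bridge: classes away from `S` die in the extension unramified outside `S`, up to order prime to `p`

If the `p`-th power of a class is represented by an idele supported on `S`, so is the class, at a
higher level: the `p`-th root of the principal part generates an extension unramified outside `S`.
-/

set_option autoImplicit false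

noncomputable section

open IntermediateField IsDedekindDomain
open scoped NumberField nonZeroDivisors

namespace Fermat.Agent.ClassField.S55

open Idele

local notation "Qb" => AlgebraicClosure ℚ
local notation "Γ" => (AlgebraicClosure ℚ ≃ₐ[ℚ] AlgebraicClosure ℚ)

variable (K : IntermediateField ℚ Qb) [FiniteDimensional ℚ K]

/-- Some power of every prime, with exponent the class number, is principal. -/
theorem exists_ordK_eq_classNumber (w : HeightOneSpectrum (𝓞 K)) :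
    ∃ x : 𝓞 K, x ≠ 0 ∧ ordK w (x : K) = (Fintype.card (ClassGroup (𝓞 K)) : ℤ) ∧
      ∀ v, v ≠ w → ordK v (x : K) = 0 := by
  set h := Fintype.card (ClassGroup (𝓞 K))
  have hmem : w.asIdeal ^ h ∈ (Ideal (𝓞 K))⁰ :=
    mem_nonZeroDivisors_of_ne_zero (pow_ne_zero _ w.ne_bot)
  have hprin : Submodule.IsPrincipal (w.asIdeal ^ h) := by
    refine (ClassGroup.mk0_eq_one_iff hmem).mp ?_
    have h1 : ClassGroup.mk0 ((⟨w.asIdeal, mem_nonZeroDivisors_of_ne_zero w.ne_bot⟩ :
        (Ideal (𝓞 K))⁰) ^ h) = placeClass K w ^ h := map_pow _ _ _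
    rw [pow_card_eq_one] at h1
    exact h1
  obtain ⟨x, hx⟩ := hprin.principal
  rw [Ideal.submodule_span_eq] at hx
  have hx0 : x ≠ 0 := by
    rintro rfl
    rw [Ideal.span_singleton_eq_bot.mpr rfl] at hx
    exact pow_ne_zero h w.ne_bot hx
  refine ⟨x, hx0, ?_, fun v hvw => ?_⟩
  · have h1 : x ∈ w.asIdeal ^ h := by rw [hx]; exact Ideal.mem_span_singleton_self x
    have h2 : x ∉ w.asIdeal ^ (h + 1) := by
      intro hmem'
      have hle : w.asIdeal ^ h ≤ w.asIdeal ^ (h + 1) := by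
        rw [hx]
        exact (Ideal.span_singleton_le_iff_mem _).mpr hmem'
      exact (w.asIdeal.pow_right_strictAnti w.ne_bot w.isPrime.ne_top (Nat.lt_succ_self h)).not_ge hle
    rw [← w.intValuation_le_pow_iff_mem] at h1 h2
    rw [ordK, show ((x : K)) = algebraMap (𝓞 K) K x from rfl,
      HeightOneSpectrum.valuation_of_algebraMap]
    obtain ⟨m, hm⟩ : ∃ m : ℕ, w.intValuation x = WithZero.exp (-(m : ℤ)) :=
      ⟨_, w.intValuation_if_neg hx0⟩
    rw [hm, WithZero.exp_le_exp] at h1 h2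
    rw [hm, WithZero.log_exp]
    omega
  · have hxv : x ∉ v.asIdeal := fun hxv => hvw (HeightOneSpectrum.ext
      (w.isMaximal.eq_of_le v.isPrime.ne_top (v.isPrime.le_of_pow_le (n := h)
        (by rw [hx]; exact (Ideal.span_singleton_le_iff_mem _).mpr hxv))).symm)
    rw [ordK, show ((x : K)) = algebraMap (𝓞 K) K x from rfl,
      HeightOneSpectrum.valuation_of_algebraMap, HeightOneSpectrum.intValuation_eq_one_iff.mpr hxv,
      WithZero.log_one, neg_zero]

variable {K}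

/-- The order of an idele of `K` at a place. -/
theorem exists_placeOrd {f : IdeleGroup} (hf : f ∈ idelesOf K) (v : HeightOneSpectrum (𝓞 K)) :
    ∃ n : ℤ, ∀ (ℓ : Nat.Primes) (ι : Emb ℓ), placeAt ι K = v →
      ‖((f : Raw) ℓ ι : PadicAlgCl (ℓ : ℕ))‖ = ‖embInt ι K (unifK (placeAt ι K))‖ ^ n := by
  by_cases h : ∃ (ℓ : Nat.Primes) (ι : Emb ℓ), placeAt ι K = v
  · obtain ⟨ℓ₀, ι₀, h₀⟩ := h
    obtain ⟨n, hn⟩ := exists_norm_apply_eq_zpow ι₀ hf
    refine ⟨n, fun ℓ ι hι => ?_⟩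
    have hℓ : ℓ = ℓ₀ := by
      by_contra hne
      have h1 : ((ℓ : ℕ) : 𝓞 K) ∈ v.asIdeal := hι ▸ natCast_mem_primeIdeal ι K
      have h2 : ((ℓ₀ : ℕ) : 𝓞 K) ∈ v.asIdeal := h₀ ▸ natCast_mem_primeIdeal ι₀ K
      obtain ⟨a, b, hab⟩ := Nat.isCoprime_iff_coprime.mpr
        ((Nat.coprime_primes ℓ.2 ℓ₀.2).mpr fun h => hne (Subtype.ext h))
      apply v.isPrime.ne_top
      rw [Ideal.eq_top_iff_one]
      have := congrArg (fun z : ℤ => (z : 𝓞 K)) hab
      simp only [Int.cast_add, Int.cast_mul, Int.cast_natCast, Int.cast_one] at this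
      rw [← this]
      exact v.asIdeal.add_mem (v.asIdeal.mul_mem_left _ h1) (v.asIdeal.mul_mem_left _ h2)
    subst hℓ
    obtain ⟨τ, hτ⟩ := exists_localComp_eqOn_of_placeAt_eq ι₀ (h₀.trans hι.symm)
    have hπ : ∀ x : 𝓞 K, ‖embInt ι K x‖ = ‖embInt ι₀ K x‖ := fun x => by
      rw [embInt_apply, embInt_apply]
      exact (norm_eq_of_placeAt_eq ι₀ (h₀.trans hι.symm) (x : K).2).symm
    rw [hπ, hι, ← h₀, ← hn, apply_eq_of_eqOn hf (ι := localComp τ ι₀) (ι' := ι) hτ, f.2.1 ℓ τ ι₀]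
    exact (spectralNorm_eq_of_equiv τ _).symm
  · exact ⟨0, fun ℓ ι hι => absurd ⟨ℓ, ι, hι⟩ h⟩

/-- The class number power of an idele of `K` is principal up to local units. -/
theorem exists_principal_mul_pow_norm_eq_one {f : IdeleGroup} (hf : f ∈ idelesOf K) :
    ∃ x : Qbˣ, (x : Qb) ∈ K ∧ ∀ (ℓ : Nat.Primes) (ι : Emb ℓ),
      ‖(((principal x * f ^ Fintype.card (ClassGroup (𝓞 K)) : IdeleGroup) : Raw) ℓ ι :
        PadicAlgCl (ℓ : ℕ))‖ = 1 := by
  classical
  obtain ⟨A, hA⟩ := f.2.2.2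
  choose n hn using exists_placeOrd (K := K) hf
  choose g hg0 hgw hgv using exists_ordK_eq_classNumber K
  set W : Finset (HeightOneSpectrum (𝓞 K)) :=
    A.biUnion fun ℓ => (finite_places_over K ℓ).toFinset with hW
  set x : K := ∏ w ∈ W, ((g w : 𝓞 K) : K) ^ (-n w) with hxdef
  have hx0 : x ≠ 0 :=
    Finset.prod_ne_zero_iff.mpr fun w _ => zpow_ne_zero _ (by exact_mod_cast hg0 w)
  refine ⟨Units.mk0 (x : Qb) (fun h => hx0 (Subtype.ext h)), x.2, fun ℓ ι => ?_⟩
  set v := placeAt ι K with hv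
  have hordsum : ∀ s : Finset (HeightOneSpectrum (𝓞 K)),
      ‖ι ((∏ w ∈ s, ((g w : 𝓞 K) : K) ^ (-n w) : K) : Qb)‖ =
        ‖embInt ι K (unifK v)‖ ^ (∑ w ∈ s, -n w * ordK v ((g w : 𝓞 K) : K)) := by
    intro s
    induction s using Finset.induction_on with
    | empty => simp
    | @insert w s hws ih =>
      rw [Finset.prod_insert hws, Finset.sum_insert hws, IntermediateField.coe_mul, map_mul,
        norm_mul, ih, zpow_add₀ (norm_unifK_pos ι).ne']
      congr 1
      rw [show ((((g w : 𝓞 K) : K) ^ (-n w) : K) : Qb) = (((g w : 𝓞 K) : K) : Qb) ^ (-n w) from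
        map_zpow₀ K.val _ _, map_zpow₀, norm_zpow, norm_emb_eq_zpow ι (by exact_mod_cast hg0 w),
        ← zpow_mul, mul_comm]
  simp only [Subgroup.coe_mul, SubgroupClass.coe_pow, Raw.mul_apply, Units.val_mul, norm_mul,
    principal_apply, Units.val_mk0]
  rw [show ((f : Raw) ^ Fintype.card (ClassGroup (𝓞 K))) ℓ ι =
    ((f : Raw) ℓ ι) ^ Fintype.card (ClassGroup (𝓞 K)) from rfl, Units.val_pow_eq_pow_val, norm_pow,
    hn v ℓ ι rfl, hxdef, hordsum, ← zpow_natCast, ← zpow_mul,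
    ← zpow_add₀ (norm_unifK_pos ι).ne']
  have hzero : (∑ w ∈ W, -n w * ordK v ((g w : 𝓞 K) : K)) +
      n v * (Fintype.card (ClassGroup (𝓞 K)) : ℤ) = 0 := by
    by_cases hvW : v ∈ W
    · rw [Finset.sum_eq_single v (fun w _ hw => by rw [hgv w v (Ne.symm hw), mul_zero])
        (fun h => absurd hvW h), hgw v]
      ring
    · rw [Finset.sum_eq_zero fun w hw => by
        rw [hgv w v (fun h => hvW (h ▸ hw)), mul_zero], zero_add]
      have hℓA : ℓ ∉ A := fun h => hvW (Finset.mem_biUnion.mpr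
        ⟨ℓ, h, (finite_places_over K ℓ).mem_toFinset.mpr (natCast_mem_primeIdeal ι K)⟩)
      have h1 := hn v ℓ ι rfl
      rw [hA ℓ hℓA ι] at h1
      rw [zpow_right_injective₀ (norm_unifK_pos ι) (norm_unifK_lt_one ι).ne
        (h1.symm.trans (zpow_zero _).symm), zero_mul]
  rw [hzero, zpow_zero]

variable {S : Finset Nat.Primes}

/-- An idele of norm one outside `S` has the class of its truncation. -/
theorem classMap_truncate {g : IdeleGroup}
    (hg : ∀ ℓ ∉ S, ∀ ι : Emb ℓ, ‖((g : Raw) ℓ ι : PadicAlgCl (ℓ : ℕ))‖ = 1) :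
    classMap (S : Set Nat.Primes) (truncate S g) = classMap (S : Set Nat.Primes) g := by
  refine QuotientGroup.eq.mpr (Subgroup.mem_sup_right ⟨fun ℓ hℓ ι => ?_, fun ℓ hℓ ι => ?_⟩)
  · have hℓ' : ℓ ∈ S := hℓ
    simp [truncate_apply, hℓ']
  · have hℓ' : ℓ ∉ S := hℓ
    simpa [truncate_apply, hℓ'] using hg ℓ hℓ' ι

theorem truncate_mem_sIdeles {g : IdeleGroup} (hg : IsFixed S g) : truncate S g ∈ sIdeles S := by
  obtain ⟨U, hU, h⟩ := hg
  exact ⟨⟨U, hU, fun s hs => by rw [smul_truncate, h s hs]⟩,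
    fun ℓ hℓ ι => by simp [truncate_apply, hℓ]⟩

/-- If the `p`-th power of a class is supported on `S`, so is the class. -/
theorem exists_sIdele_of_pow {p : ℕ} (hp : p.Prime) (hpS : (⟨p, hp⟩ : Nat.Primes) ∈ S)
    {f : IdeleGroup} (hf : IsFixed S f) {j : IdeleGroup} (hj : j ∈ sIdeles S)
    (h : classMap (S : Set Nat.Primes) j = classMap (S : Set Nat.Primes) (f ^ p)) :
    ∃ j' ∈ sIdeles S, classMap (S : Set Nat.Primes) j' = classMap (S : Set Nat.Primes) f := by
  have := Fact.mk hp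
  obtain ⟨z, ⟨x, rfl⟩, u, hu, hxu⟩ := Subgroup.mem_sup.mp (QuotientGroup.eq.mp h)
  obtain ⟨U₁, hU₁, h₁⟩ := hf
  obtain ⟨U₂, hU₂, h₂⟩ := hj.1
  obtain ⟨_, ⟨N, hN, hNn, rfl⟩, hN₁, hN₂⟩ := (levels S).directed U₁ hU₁ U₂ hU₂
  have := hN.1
  have hfN : f ∈ idelesOf N := fun s hs => h₁ s (hN₁ hs)
  have heq : principal x * u = j⁻¹ * f ^ p := hxu
  -- the principal part is fixed by the level
  have hxN : (x : Qb) ∈ N := mem_of_forall_fixingSubgroup N fun s hs => by
    have hfix : s • (j⁻¹ * f ^ p) = j⁻¹ * f ^ p := by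
      rw [smul_mul', smul_inv', smul_pow', h₁ s (hN₁ hs), h₂ s (hN₂ hs)]
    obtain ⟨q, hqS⟩ : ∃ q : Nat.Primes, q ∈ S := ⟨_, hpS⟩
    obtain ⟨ι⟩ := nonempty_emb q
    rw [← heq, smul_mul', smul_principal] at hfix
    have e := congrArg (fun g : IdeleGroup => ((g : Raw) q ι : PadicAlgCl (q : ℕ))) hfix
    have hu1 := hu.1 q hqS ι
    have hu2 : ((s • u : IdeleGroup) : Raw) q ι = 1 :=
      (smul_mem_unitsAway s hu).1 q hqS ι
    simp only [Subgroup.coe_mul, Raw.mul_apply, principal_apply, hu1, hu2,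
      mul_one] at e
    exact ι.toRingHom.injective e
  obtain ⟨y, hy⟩ := IsAlgClosed.exists_pow_nat_eq (x : Qb) hp.pos
  have hy0 : y ≠ 0 := fun h0 => x.ne_zero (by rw [← hy, h0, zero_pow hp.ne_zero])
  have hnorm : ∀ q ∉ S, ∀ ι : Emb q,
      ‖ι y‖ = ‖((f : Raw) q ι : PadicAlgCl (q : ℕ))‖ := fun q hq ι => by
    have e := congrArg (fun g : IdeleGroup => ‖((g : Raw) q ι : PadicAlgCl (q : ℕ))‖) heq
    simp only [Subgroup.coe_mul, Subgroup.coe_inv, SubgroupClass.coe_pow, Raw.mul_apply,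
      Raw.inv_apply, Units.val_mul, norm_mul, principal_apply, hj.2 q hq ι, inv_one,
      one_mul, hu.2 q hq ι, mul_one] at e
    rw [show ((f : Raw) ^ p) q ι = ((f : Raw) q ι) ^ p from rfl, Units.val_pow_eq_pow_val,
      norm_pow, ← hy, map_pow, norm_pow] at e
    exact (pow_left_inj₀ (norm_nonneg _) (norm_nonneg _) hp.ne_zero).mp e
  have hL : (N ⊔ ℚ⟮y⟯).IsUnramifiedOutside S :=
    isUnramifiedOutside_sup_adjoin hN fun q hq A hA τ hτ => by
      obtain ⟨ι, hι⟩ := exists_emb_of_liesOverPrime q hA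
      obtain ⟨m, hm⟩ := exists_norm_apply_eq_zpow ι hfN
      set γ : N := ((unifK (placeAt ι N) : 𝓞 N) : N) ^ m with hγ
      have hτN := hN.2 q hq A hA hτ
      have hγn : ‖ι (γ : Qb)‖ = ‖ι y‖ := by
        rw [hnorm q hq ι, hm, hγ, show ((((unifK (placeAt ι N) : 𝓞 N) : N) ^ m : N) : Qb) =
          (((unifK (placeAt ι N) : 𝓞 N) : N) : Qb) ^ m from map_zpow₀ N.val _ _, map_zpow₀,
          norm_zpow]
        rfl
      have hγ0 : (γ : Qb) ≠ 0 := fun h0 => by
        rw [h0, map_zero, norm_zero] at hγn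
        exact hy0 (ι.toRingHom.injective ((norm_eq_zero.mp hγn.symm).trans (map_zero _).symm))
      have hz : ‖ι (y / γ)‖ = 1 := by
        rw [map_div₀, norm_div, hγn, div_self]
        exact norm_ne_zero_iff.mpr fun h0 =>
          hy0 (ι.toRingHom.injective (h0.trans (map_zero _).symm))
      have hfixγ : τ (γ : Qb) = γ :=
        (IntermediateField.mem_fixingSubgroup_iff _ _).mp hτN _ γ.2
      have hfix : τ (y / γ) = y / γ :=
        apply_eq_of_mem_inertia (n := p) (fun hd => hq (by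
          rwa [show q = (⟨p, hp⟩ : Nat.Primes) from
            Subtype.ext ((Nat.prime_dvd_prime_iff_eq q.2 hp).mp hd)]))
          hA hτ (hι _ hz.le) (hι _ (by rw [map_inv₀, norm_inv, hz, inv_one])) (div_ne_zero hy0 hγ0)
          (by rw [div_pow, map_div₀, map_pow τ (γ : Qb), hfixγ, hy,
            (IntermediateField.mem_fixingSubgroup_iff _ _).mp hτN _ hxN])
      rw [map_div₀, hfixγ] at hfix
      exact (div_left_inj' hγ0).mp hfix
  let y' : Qbˣ := Units.mk0 y hy0
  have hy' : IsFixed S (principal y') := by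
    obtain ⟨V, hV, hfix⟩ := isFixed_of_mem hL (x := y')
      ((le_sup_right : ℚ⟮y⟯ ≤ N ⊔ ℚ⟮y⟯) (mem_adjoin_simple_self ℚ y))
    exact ⟨V, hV, fun s hs => by rw [smul_principal, hfix s hs]⟩
  refine ⟨_, truncate_mem_sIdeles ((IsFixed.mul ⟨U₁, hU₁, h₁⟩ hy'.inv)),
    (classMap_truncate fun q hq ι => ?_).trans
      (by rw [map_mul, map_inv, classMap_principal, inv_one, mul_one])⟩
  simp only [Subgroup.coe_mul, Subgroup.coe_inv, Raw.mul_apply, Raw.inv_apply, Units.val_mul,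
    Units.val_inv_eq_inv_val, principal_apply, norm_mul, norm_inv, y', Units.val_mk0,
    hnorm q hq ι]
  exact mul_inv_cancel₀ (norm_ne_zero_iff.mpr (Units.ne_zero _))

/-- Capitulation: up to an exponent prime to `p`, the classes of a level are represented by
ideles supported on `S` of the maximal extension unramified outside `S`. -/
theorem exists_sIdele_pow_class {p : ℕ} (hp : p.Prime) (hpS : (⟨p, hp⟩ : Nat.Primes) ∈ S)
    (hK : K.IsUnramifiedOutside S) {c : IdeleClass (S : Set Nat.Primes)}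
    (hc : c ∈ classesOf (S : Set Nat.Primes) K) :
    ∃ n : ℕ, ¬ p ∣ n ∧ ∃ j ∈ sIdeles S, classMap (S : Set Nat.Primes) j = c ^ n := by
  obtain ⟨f, hf, rfl⟩ := hc
  obtain ⟨x, hxK, hx⟩ := exists_principal_mul_pow_norm_eq_one hf
  obtain ⟨N, hle, hN, hNn⟩ := exists_normal_isUnramifiedOutside hK
  have hfix : IsFixed S f :=
    ⟨_, ⟨N, hN, hNn, rfl⟩, fun s hs => hf s (fixingSubgroup_antitone hle hs)⟩
  obtain ⟨a, n, hn, hh⟩ := Nat.exists_eq_pow_mul_and_not_dvd
    (Fintype.card_ne_zero : Fintype.card (ClassGroup (𝓞 K)) ≠ 0) p hp.ne_one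
  have hpow : ∀ m : ℕ, IsFixed S (f ^ m) := fun m => by
    obtain ⟨U, hU, h⟩ := hfix
    exact ⟨U, hU, fun s hs => by rw [smul_pow', h s hs]⟩
  refine ⟨n, hn, ?_⟩
  have key : ∀ b : ℕ, (∃ j ∈ sIdeles S, classMap (S : Set Nat.Primes) j =
      classMap (S : Set Nat.Primes) f ^ (p ^ b * n)) →
      ∃ j ∈ sIdeles S, classMap (S : Set Nat.Primes) j =
        classMap (S : Set Nat.Primes) f ^ n := by
    intro b
    induction b with
    | zero => intro h; simpa using h
    | succ b ih =>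
      rintro ⟨j, hj, hje⟩
      obtain ⟨j', hj', hje'⟩ := exists_sIdele_of_pow hp hpS (hpow (p ^ b * n)) hj (by
        rw [hje, map_pow, map_pow, ← pow_mul]
        congr 1
        ring)
      exact ih ⟨j', hj', hje'.trans (map_pow _ _ _)⟩
  refine key a ⟨truncate S (principal x * f ^ Fintype.card (ClassGroup (𝓞 K))), ?_, ?_⟩
  · refine truncate_mem_sIdeles (IsFixed.mul ?_ (hpow _))
    obtain ⟨U, hU, h⟩ := isFixed_of_mem hK hxK
    exact ⟨U, hU, fun s hs => by rw [smul_principal, h s hs]⟩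
  · rw [classMap_truncate fun ℓ _ ι => hx ℓ ι, map_mul, classMap_principal, one_mul, map_pow, hh]

end Fermat.Agent.ClassField.S55
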