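import Fermat.Agent.ClassField.S55.Complex
import Fermat.Agent.ClassField.Idele.Basic
import Fermat.Prelude.Def_GroupCohomology_ContinuousUnramified

/-!
# S55 bridge: the levels unramified outside `S`

The fixing subgroups of the finite normal extensions of `ℚ` unramified outside `S` form a family
of levels; smoothness for it is level constancy in the sense of the frozen definitions.
-/

set_option autoImplicit false

noncomputable section

open scoped Pointwise

namespace Fermat.Agent.ClassField.S55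

open Idele IntermediateField

local notation "Qb" => AlgebraicClosure ℚ
local notation "Γ" => (AlgebraicClosure ℚ ≃ₐ[ℚ] AlgebraicClosure ℚ)

/-- Lying over a prime is preserved by the Galois action. -/
theorem liesOverPrime_smul {A : ValuationSubring Qb} {q : ℕ} (σ : Γ) (h : A.LiesOverPrime q) :
    (σ • A).LiesOverPrime q := by
  unfold ValuationSubring.LiesOverPrime at h ⊢
  rw [ValuationSubring.mem_nonunits_iff_exists_mem_maximalIdeal] at h ⊢
  obtain ⟨hmem, hmax⟩ := h
  have hσ : σ ((q : ℕ) : Qb) = (q : Qb) := map_natCast σ q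
  have hmem' : (q : Qb) ∈ σ • A :=
    ValuationSubring.mem_smul_pointwise_iff_exists _ _ _ |>.mpr ⟨_, hmem, hσ⟩
  refine ⟨hmem', fun hu => hmax ?_⟩
  obtain ⟨⟨y, hy⟩, hy'⟩ := isUnit_iff_exists_inv.mp hu
  obtain ⟨z, hz, rfl⟩ := (ValuationSubring.mem_smul_pointwise_iff_exists _ _ _).mp hy
  refine isUnit_iff_exists_inv.mpr ⟨⟨z, hz⟩, Subtype.ext (σ.injective ?_)⟩
  have h1 : (q : Qb) * σ • z = 1 := congrArg Subtype.val hy'
  simpa [map_mul, AlgEquiv.smul_def] using h1

/-- Conjugates of inertia elements are inertia elements of the conjugate place. -/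
theorem conj_mem_inertiaSubgroupIn {A : ValuationSubring Qb} (σ : Γ) {τ : Γ}
    (h : τ ∈ A.inertiaSubgroupIn ℚ) : σ * τ * σ⁻¹ ∈ (σ • A).inertiaSubgroupIn ℚ := by
  obtain ⟨⟨τ', hτ'⟩, hker, rfl⟩ := h
  have hτA : τ' • A = A := MulAction.mem_stabilizer_iff.mp hτ'
  have hdec : σ * τ' * σ⁻¹ ∈ (σ • A).decompositionSubgroup ℚ := by
    rw [MulAction.mem_stabilizer_iff, mul_smul, mul_smul, inv_smul_smul, hτA]
  refine ⟨⟨_, hdec⟩, ?_, rfl⟩
  rw [ValuationSubring.inertiaSubgroup, SetLike.mem_coe, MonoidHom.mem_ker] at hker ⊢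
  refine RingEquiv.ext fun y => ?_
  obtain ⟨⟨x, hx⟩, rfl⟩ := IsLocalRing.residue_surjective y
  obtain ⟨z, hz, rfl⟩ := (ValuationSubring.mem_smul_pointwise_iff_exists _ _ _).mp hx
  show (⟨_, hdec⟩ : (σ • A).decompositionSubgroup ℚ) •
      IsLocalRing.residue (σ • A : ValuationSubring Qb) ⟨σ • z, hx⟩ =
    IsLocalRing.residue (σ • A : ValuationSubring Qb) ⟨σ • z, hx⟩
  rw [← IsLocalRing.ResidueField.residue_smul]
  refine Ideal.Quotient.eq.mpr ?_
  have h1 := DFunLike.congr_fun hker (IsLocalRing.residue A ⟨z, hz⟩)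
  change (⟨τ', hτ'⟩ : A.decompositionSubgroup ℚ) • IsLocalRing.residue A ⟨z, hz⟩ = _ at h1
  rw [← IsLocalRing.ResidueField.residue_smul] at h1
  have h2 := Ideal.Quotient.eq.mp h1
  rw [← ValuationSubring.coe_mem_nonunits_iff] at h2 ⊢
  rw [ValuationSubring.mem_nonunits_iff_exists_mem_maximalIdeal] at h2 ⊢
  obtain ⟨hm, hmax⟩ := h2
  have heq : (σ * τ' * σ⁻¹) (σ • z) - σ • z = σ • (τ' z - z) := by
    show σ (τ' (σ.symm (σ z))) - σ z = σ (τ' z - z)
    rw [AlgEquiv.symm_apply_apply, map_sub]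
  have hm' : (σ * τ' * σ⁻¹) (σ • z) - σ • z ∈ σ • A :=
    (ValuationSubring.mem_smul_pointwise_iff_exists _ _ _).mpr ⟨_, hm, heq.symm⟩
  refine ⟨hm', fun hu => hmax ?_⟩
  obtain ⟨⟨w, hw⟩, hw'⟩ := isUnit_iff_exists_inv.mp hu
  obtain ⟨v, hv, rfl⟩ := (ValuationSubring.mem_smul_pointwise_iff_exists _ _ _).mp hw
  refine isUnit_iff_exists_inv.mpr ⟨⟨v, hv⟩, Subtype.ext (σ.injective ?_)⟩
  have h3 : ((σ * τ' * σ⁻¹) (σ • z) - σ • z) * σ • v = 1 := congrArg Subtype.val hw'
  rw [heq, AlgEquiv.smul_def, AlgEquiv.smul_def, ← map_mul] at h3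
  exact h3.trans (map_one σ).symm

variable {S : Finset Nat.Primes}

/-- The normal closure of an extension unramified outside `S` is unramified outside `S`. -/
theorem exists_normal_isUnramifiedOutside {F : IntermediateField ℚ Qb}
    (hF : F.IsUnramifiedOutside S) :
    ∃ N : IntermediateField ℚ Qb, F ≤ N ∧ N.IsUnramifiedOutside S ∧ Normal ℚ N := by
  have := hF.1
  refine ⟨IntermediateField.normalClosure ℚ F Qb, IntermediateField.le_normalClosure _,
    ⟨normalClosure.is_finiteDimensional ℚ _ Qb, fun q hq A hA τ hτ => ?_⟩,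
    normalClosure.normal ℚ _ Qb⟩
  have hle : IntermediateField.normalClosure ℚ F Qb ≤ fixedField (Subgroup.zpowers τ) := by
    refine iSup_le fun f => ?_
    rintro x ⟨y, rfl⟩
    refine (mem_fixedField_iff _ _).mpr fun g hg => ?_
    have hfix : τ (f y) = f y := by
      let σ : Γ := Algebra.IsAlgebraic.algEquivEquivAlgHom ℚ Qb |>.symm
        (f.liftNormal Qb)
      have hσ : ∀ z : F, σ (z : Qb) = f z := fun z => AlgHom.liftNormal_commutes f Qb z
      have h1 : σ⁻¹ * τ * σ ∈ (σ⁻¹ • A).inertiaSubgroupIn ℚ := by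
        simpa using conj_mem_inertiaSubgroupIn σ⁻¹ hτ
      have h2 := hF.2 q hq _ (liesOverPrime_smul σ⁻¹ hA) h1
      have h3 : σ.symm (τ (σ (y : Qb))) = (y : Qb) :=
        (IntermediateField.mem_fixingSubgroup_iff _ _).mp h2 _ y.2
      rwa [AlgEquiv.symm_apply_eq, hσ] at h3
    have : Subgroup.zpowers τ ≤ MulAction.stabilizer Γ (f y) := Subgroup.zpowers_le.mpr hfix
    exact this hg
  exact (IntermediateField.mem_fixingSubgroup_iff _ _).mpr fun x hx =>
    (mem_fixedField_iff _ _).mp (hle hx) τ (Subgroup.mem_zpowers τ)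

/-- The fixing subgroup of a finite normal extension has finite index. -/
theorem fixingSubgroup_index_ne_zero (F : IntermediateField ℚ Qb) [FiniteDimensional ℚ F]
    [Normal ℚ F] : F.fixingSubgroup.index ≠ 0 := by
  have hker : (AlgEquiv.restrictNormalHom (F := ℚ) (K₁ := Qb) F).ker = F.fixingSubgroup := by
    ext σ
    rw [MonoidHom.mem_ker, IntermediateField.mem_fixingSubgroup_iff]
    constructor
    · intro h x hx
      have h1 := AlgEquiv.restrictNormal_commutes σ F ⟨x, hx⟩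
      rw [show AlgEquiv.restrictNormal σ F = 1 from h] at h1
      exact h1.symm
    · intro h
      exact AlgEquiv.ext fun x => Subtype.ext
        ((AlgEquiv.restrictNormal_commutes σ F x).trans (h x x.2))
  rw [← hker, Subgroup.index_ker]
  exact Nat.card_pos.ne'

variable (S) in
/-- The levels of the maximal extension unramified outside `S`. -/
def levels : Levels Γ where
  carrier := {U | ∃ F : IntermediateField ℚ Qb, F.IsUnramifiedOutside S ∧ Normal ℚ F ∧
    F.fixingSubgroup = U}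
  nonempty := ⟨_, ⊥, isUnramifiedOutside_bot S,
    IntermediateField.normal_iff_forall_map_le'.mpr fun σ => (IntermediateField.map_bot _).le, rfl⟩
  directed := by
    rintro _ ⟨F, hF, -, rfl⟩ _ ⟨F', hF', -, rfl⟩
    obtain ⟨N, hle, hN, hNn⟩ := exists_normal_isUnramifiedOutside (hF.sup hF')
    exact ⟨_, ⟨N, hN, hNn, rfl⟩, fixingSubgroup_antitone (le_sup_left.trans hle),
      fixingSubgroup_antitone (le_sup_right.trans hle)⟩
  normal := by
    rintro _ ⟨F, hF, hn, rfl⟩
    refine ⟨fun τ hτ σ => (IntermediateField.mem_fixingSubgroup_iff _ _).mpr fun x hx => ?_⟩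
    have hx' : σ.symm x ∈ F :=
      (IntermediateField.normal_iff_forall_map_le'.mp hn σ.symm) ⟨x, hx, rfl⟩
    show σ (τ (σ.symm x)) = x
    rw [(IntermediateField.mem_fixingSubgroup_iff _ _).mp hτ _ hx', AlgEquiv.apply_symm_apply]
  finiteIndex := by
    rintro _ ⟨F, hF, hn, rfl⟩
    have := hF.1
    exact ⟨fixingSubgroup_index_ne_zero F⟩

theorem mem_levels {U : Subgroup Γ} :
    U ∈ (levels S).carrier ↔ ∃ F : IntermediateField ℚ Qb, F.IsUnramifiedOutside S ∧ Normal ℚ F ∧
      F.fixingSubgroup = U := Iff.rfl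

theorem smooth₁_iff {X : Type*} (f : Γ → X) :
    (levels S).Smooth₁ f ↔ groupCohomology.IsLevelConstantS₁ S f := by
  constructor
  · rintro ⟨_, ⟨F, hF, -, rfl⟩, h⟩
    exact ⟨F, hF, h⟩
  · rintro ⟨F, hF, h⟩
    obtain ⟨N, hle, hN, hNn⟩ := exists_normal_isUnramifiedOutside hF
    exact ⟨_, ⟨N, hN, hNn, rfl⟩, fun g s hs => h g s (fixingSubgroup_antitone hle hs)⟩

theorem smooth₂_iff {X : Type*} (f : Γ × Γ → X) :
    (levels S).Smooth₂ f ↔ groupCohomology.IsLevelConstantS₂ S f := by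
  constructor
  · rintro ⟨_, ⟨F, hF, -, rfl⟩, h⟩
    exact ⟨F, hF, h⟩
  · rintro ⟨F, hF, h⟩
    obtain ⟨N, hle, hN, hNn⟩ := exists_normal_isUnramifiedOutside hF
    exact ⟨_, ⟨N, hN, hNn, rfl⟩, fun g g' s s' hs hs' =>
      h g g' s s' (fixingSubgroup_antitone hle hs) (fixingSubgroup_antitone hle hs')⟩

end Fermat.Agent.ClassField.S55
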