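import Fermat.Agent.ClassField.S55.Bridge.Local
import Mathlib.Analysis.Normed.Field.Dense

/-!
# S55 bridge: the algebraic numbers are dense in `PadicAlgCl q`

Consequently every element of `PadicAlgCl q` is fixed by the preimage of some global level, which
makes local cochains with values in local units level constant.
-/

set_option autoImplicit false

noncomputable section

open scoped Fermat.Agent.ClassField

namespace Fermat.Agent.ClassField.S55

open Idele IntermediateField Polynomial

local notation "Qb" => AlgebraicClosure ℚ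

/-- The algebraic numbers are dense in `PadicAlgCl q`. -/
theorem exists_norm_sub_emb0_lt (q : Nat.Primes) (z : PadicAlgCl (q : ℕ)) {ε : ℝ} (hε : 0 < ε) :
    ∃ a : Qb, ‖z - emb0 q a‖ < ε := by
  by_contra! hcon
  have hint : IsIntegral ℚ_[(q : ℕ)] z := Algebra.IsIntegral.isIntegral z
  let f := minpoly ℚ_[(q : ℕ)] z
  let d := f.natDegree
  have hmonic : f.Monic := minpoly.monic hint
  have hd : 0 < d := minpoly.natDegree_pos hint
  let B : ℝ := (max 1 ‖z‖) ^ d
  have hB : 0 < B := pow_pos (lt_max_of_lt_left one_pos) d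
  have hpow : ∀ i ≤ d, ‖z‖ ^ i ≤ B := fun i hi =>
    (pow_le_pow_left₀ (norm_nonneg z) (le_max_right 1 ‖z‖) i).trans
      (pow_le_pow_right₀ (le_max_left 1 ‖z‖) hi)
  have hεd : 0 < ε ^ d / B := div_pos (pow_pos hε d) hB
  choose c hc using fun i => Padic.rat_dense (q : ℕ) (f.coeff i) hεd
  let g : ℚ[X] := X ^ d + ∑ i ∈ Finset.range d, C (c i) * X ^ i
  have hdeg : (∑ i ∈ Finset.range d, C (c i) * X ^ i).degree < (d : WithBot ℕ) :=
    (Polynomial.degree_sum_le _ _).trans_lt
      ((Finset.sup_lt_iff (WithBot.bot_lt_coe d)).mpr fun i hi =>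
        (Polynomial.degree_C_mul_X_pow_le i (c i)).trans_lt
          (WithBot.coe_lt_coe.mpr (Finset.mem_range.mp hi)))
  have hgmonic : g.Monic := monic_X_pow_add hdeg
  have hgdeg : g.natDegree = d := natDegree_eq_of_degree_eq_some
    ((degree_add_eq_left_of_degree_lt (by rwa [degree_X_pow])).trans (degree_X_pow d))
  -- the value at `z` is small
  have hfz : aeval z f = 0 := minpoly.aeval _ _
  have hval : ‖aeval z g‖ < ε ^ d := by
    have h1 : aeval z g = ∑ i ∈ Finset.range d,
        algebraMap ℚ_[(q : ℕ)] (PadicAlgCl (q : ℕ)) ((c i : ℚ_[(q : ℕ)]) - f.coeff i) * z ^ i := by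
      conv_rhs => rw [← add_zero (∑ i ∈ Finset.range d, _), ← hfz]
      rw [aeval_eq_sum_range (p := f), Finset.sum_range_succ, show f.coeff d = 1 from hmonic,
        one_smul, ← add_assoc, ← Finset.sum_add_distrib]
      simp only [g, map_add, map_pow, aeval_X, map_sum, map_mul, aeval_C, Algebra.smul_def,
        ← add_mul, map_sub, sub_add_cancel, map_ratCast]
      rw [add_comm]
      rfl
    rw [h1]
    have hne : (Finset.range d).Nonempty := ⟨0, Finset.mem_range.mpr hd⟩
    obtain ⟨i, hi, hle⟩ := IsUltrametricDist.exists_norm_finsetSum_le_of_nonempty hne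
      (fun i => algebraMap ℚ_[(q : ℕ)] (PadicAlgCl (q : ℕ))
        ((c i : ℚ_[(q : ℕ)]) - f.coeff i) * z ^ i)
    refine hle.trans_lt ?_
    rw [norm_mul, norm_algebraMap', norm_pow]
    calc ‖(c i : ℚ_[(q : ℕ)]) - f.coeff i‖ * ‖z‖ ^ i
        ≤ ‖(c i : ℚ_[(q : ℕ)]) - f.coeff i‖ * B :=
          mul_le_mul_of_nonneg_left (hpow i (Finset.mem_range.mp hi).le) (norm_nonneg _)
      _ < ε ^ d / B * B := mul_lt_mul_of_pos_right (by rw [norm_sub_rev]; exact hc i) hB
      _ = ε ^ d := div_mul_cancel₀ _ hB.ne'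
  -- but it is a product of `d` large differences
  have hsplit : (g.map (algebraMap ℚ Qb)).Splits := IsAlgClosed.splits _
  have hroots := hsplit.eq_prod_roots
  have hcard : (g.map (algebraMap ℚ Qb)).roots.card = d := by
    rw [← hsplit.natDegree_eq_card_roots, natDegree_map, hgdeg]
  have hprod : aeval z g = ((g.map (algebraMap ℚ Qb)).roots.map fun r => z - emb0 q r).prod := by
    rw [aeval_def, ← (emb0 q).comp_algebraMap, ← eval₂_map]
    conv_lhs => rw [hroots]
    rw [Monic.leadingCoeff (hgmonic.map _), map_one, one_mul, eval₂_multiset_prod,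
      Multiset.map_map]
    congr 1
    refine Multiset.map_congr rfl fun r _ => ?_
    simp
  refine absurd hval (not_lt.mpr ?_)
  rw [hprod, ← hcard]
  have key : ∀ s : Multiset Qb, ε ^ s.card ≤ ‖(s.map fun r => z - emb0 q r).prod‖ := by
    intro s
    induction s using Multiset.induction_on with
    | empty => simp
    | cons r s ih =>
      rw [Multiset.map_cons, Multiset.prod_cons, norm_mul, Multiset.card_cons, pow_succ']
      exact mul_le_mul (hcon r) ih (pow_nonneg hε.le _) (norm_nonneg _)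
  exact key _

/-- Every element of `PadicAlgCl q` is fixed by the preimage of a global level. -/
theorem exists_level_fix (q : Nat.Primes) (z : PadicAlgCl (q : ℕ)) :
    ∃ F : IntermediateField ℚ Qb, FiniteDimensional ℚ F ∧
      ∀ τ : LocalGal q, locHom q τ ∈ F.fixingSubgroup → τ z = z := by
  classical
  have hne : minpoly ℚ_[(q : ℕ)] z ≠ 0 := minpoly.ne_zero (Algebra.IsIntegral.isIntegral z)
  let T : Finset (PadicAlgCl (q : ℕ)) :=
    ((minpoly ℚ_[(q : ℕ)] z).aroots (PadicAlgCl (q : ℕ))).toFinset.erase z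
  obtain ⟨ε, hε, hεT⟩ : ∃ ε : ℝ, 0 < ε ∧ ∀ y ∈ T, ε ≤ ‖y - z‖ := by
    rcases T.eq_empty_or_nonempty with h | h
    · exact ⟨1, one_pos, by simp [h]⟩
    · refine ⟨(T.image fun y => ‖y - z‖).min' (h.image _), ?_, fun y hy =>
        Finset.min'_le _ _ (Finset.mem_image_of_mem _ hy)⟩
      obtain ⟨y, hy, hye⟩ := Finset.mem_image.mp (Finset.min'_mem _ (h.image fun y => ‖y - z‖))
      rw [← hye, norm_pos_iff, sub_ne_zero]
      exact (Finset.mem_erase.mp hy).1
  obtain ⟨a, ha⟩ := exists_norm_sub_emb0_lt q z hε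
  refine ⟨ℚ⟮a⟯, adjoin.finiteDimensional (Algebra.IsIntegral.isIntegral a), fun τ hτ => ?_⟩
  have hτa : τ (emb0 q a) = emb0 q a := by
    rw [← emb0_locHom, (IntermediateField.mem_fixingSubgroup_iff _ _).mp hτ a
      (mem_adjoin_simple_self ℚ a)]
  by_contra hne'
  have hmem : τ z ∈ T := by
    refine Finset.mem_erase.mpr ⟨hne', Multiset.mem_toFinset.mpr ?_⟩
    rw [mem_aroots]
    exact ⟨hne, by rw [aeval_algHom_apply, minpoly.aeval, map_zero]⟩
  refine absurd (hεT _ hmem) (not_le.mpr ?_)
  have h1 : ‖τ z - emb0 q a‖ = ‖z - emb0 q a‖ := by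
    conv_lhs => rw [← hτa, ← map_sub]
    exact congrArg NNReal.toReal (nnnorm_padicAlgCl_algEquiv (q : ℕ) τ (z - emb0 q a))
  calc ‖τ z - z‖ = ‖(τ z - emb0 q a) + (emb0 q a - z)‖ := by rw [sub_add_sub_cancel]
    _ ≤ max ‖τ z - emb0 q a‖ ‖emb0 q a - z‖ := IsUltrametricDist.norm_add_le_max _ _
    _ < ε := max_lt (by rwa [h1]) (by rwa [norm_sub_rev])

/-- Every local unit is fixed by the preimage of a global level. -/
theorem exists_level_fix_units (q : Nat.Primes) (x : LUnits q) :
    ∃ F : IntermediateField ℚ Qb, FiniteDimensional ℚ F ∧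
      ∀ τ : LocalGal q, locHom q τ ∈ F.fixingSubgroup → τ • x = x := by
  obtain ⟨F, hF, h⟩ := exists_level_fix q (x.toMul : PadicAlgCl (q : ℕ))
  exact ⟨F, hF, fun τ hτ => Additive.toMul.injective (Units.ext (h τ hτ))⟩

end Fermat.Agent.ClassField.S55
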