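import Fermat.Agent.ClassField.S55.Bridge.Local
import Fermat.Agent.ClassField.S55.Bridge.Perm
import Fermat.Agent.ClassField.S55.Complex

/-!
# S55 bridge: the Poitou–Tate diagram

`Presentation`: a presentation `R → P → N` of the dual module by a permutation module together with
the identification `M = Hom(N, E)`.  `CTorsion`: the only input from class field theory, the
vanishing of `p`-torsion classes in `H¹` of the classes.
-/

set_option autoImplicit false

noncomputable section

namespace Fermat.Agent.ClassField.S55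

open Idele

local notation "Qb" => AlgebraicClosure ℚ
local notation "Γ" => (AlgebraicClosure ℚ ≃ₐ[ℚ] AlgebraicClosure ℚ)

section CHomLemmas

variable {G R X X' X'' : Type*} [Group G] [AddCommGroup R] [AddCommGroup X] [AddCommGroup X']
  [AddCommGroup X''] [DistribMulAction G R] [DistribMulAction G X] [DistribMulAction G X']
  [DistribMulAction G X'']

omit [DistribMulAction G X''] [AddCommGroup X''] in
theorem chom_post_injective {φ : X →+[G] X'} (hφ : Function.Injective φ) :
    Function.Injective (CHom.post (R := R) φ) := fun _ _ h =>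
  CHom.ext' fun r => hφ (congrArg (fun z : CHom R X' => z r) h)

theorem chom_post_exact {φ : X →+[G] X'} {ψ : X' →+[G] X''} (hφ : Function.Injective φ)
    (hex : ∀ x, ψ x = 0 ↔ ∃ e, φ e = x) (f : CHom R X') :
    CHom.post ψ f = 0 ↔ ∃ e, CHom.post φ e = f := by
  constructor
  · intro h
    have hk : ∀ r, ∃ e, φ e = f r := fun r => (hex _).mp (congrArg (fun z : CHom R X'' => z r) h)
    choose e he using hk
    exact ⟨⟨AddMonoidHom.mk' e fun a b => hφ (by rw [map_add, he, he, he, map_add])⟩,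
      CHom.ext' he⟩
  · rintro ⟨e, rfl⟩
    exact CHom.ext' fun r => (hex _).mpr ⟨e r, rfl⟩

theorem chom_discrete {L : Levels G} {ι : Type*} [Finite ι] (v : ι → R)
    (hv : Submodule.span ℤ (Set.range v) = ⊤) (hR : ∃ U ∈ L.carrier, ∀ s ∈ U, ∀ r : R, s • r = r)
    (hX : L.Discrete X) : L.Discrete (CHom R X) := by
  intro f
  obtain ⟨U₀, hU₀, hfix⟩ := hR
  have key : ∀ T : Finset ι, ∃ V ∈ L.carrier, V ≤ U₀ ∧ ∀ i ∈ T, ∀ s ∈ V, s • f (v i) = f (v i) := by
    classical
    intro T
    induction T using Finset.induction_on with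
    | empty => exact ⟨U₀, hU₀, le_rfl, by simp⟩
    | @insert i T _ ih =>
      obtain ⟨V, hV, hVU, ihV⟩ := ih
      obtain ⟨V', hV', hi⟩ := hX (f (v i))
      obtain ⟨W, hW, hWV, hWV'⟩ := L.directed V hV V' hV'
      refine ⟨W, hW, hWV.trans hVU, fun j hj s hs => ?_⟩
      rcases Finset.mem_insert.1 hj with rfl | hj
      · exact hi s (hWV' hs)
      · exact ihV j hj s (hWV hs)
  obtain ⟨V, hV, hVU, hVi⟩ := key (Set.finite_univ (α := ι)).toFinset
  refine ⟨V, hV, fun s hs => CHom.ext ?_⟩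
  refine AddMonoidHom.toIntLinearMap_injective (LinearMap.ext_on hv ?_)
  rintro _ ⟨i, rfl⟩
  show (s • f) (v i) = f (v i)
  rw [CHom.smul_apply, hfix _ (hVU (inv_mem hs)), hVi i (by simp) s hs]

end CHomLemmas

/-- A presentation of the dual module, with `M` identified with its homomorphisms into `E`. -/
structure Presentation (S : Finset Nat.Primes) (p : ℕ) (M N P R Y : Type*) [AddCommGroup M]
    [DistribMulAction Γ M] [AddCommGroup N] [DistribMulAction Γ N] [AddCommGroup P]
    [DistribMulAction Γ P] [AddCommGroup R] [DistribMulAction Γ R] [MulAction Γ Y] where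
  U₀ : Subgroup Γ
  mem_levels : U₀ ∈ (levels S).carrier
  basis : Module.Basis Y ℤ P
  smul_basis : ∀ (g : Γ) y, g • basis y = basis (g • y)
  π : P →+[Γ] N
  π_surjective : Function.Surjective π
  incl : R →+[Γ] P
  incl_injective : Function.Injective incl
  exact : ∀ x, π x = 0 ↔ ∃ r, incl r = x
  fixed_P : ∀ u ∈ U₀, ∀ x : P, u • x = x
  mu : M →+[Γ] CHom N (EMod S)
  mu_bijective : Function.Bijective mu
  p_smul_M : ∀ m : M, p • m = 0
  p_smul_N : ∀ n : N, p • n = 0
  dvd_mem : ∀ q : Nat.Primes, (q : ℕ) ∣ p → q ∈ S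

/-- `p`-torsion classes in `H¹` of the classes vanish, for every open subgroup. -/
def CTorsion (S : Finset Nat.Primes) (p : ℕ) : Prop :=
  ∀ H : Subgroup Γ, (∃ U ∈ (levels S).carrier, U ≤ H) → ∀ a : H → CMod S,
    (∀ g h : H, a (g * h) = (g : Γ) • a h + a g) →
    (∃ U ∈ (levels S).carrier, ∀ g s : H, (s : Γ) ∈ U → a (g * s) = a g) →
    (∃ y : CMod S, ∀ g : H, (g : Γ) • y - y = p • a g) →
    ∃ x : CMod S, ∀ g : H, (g : Γ) • x - x = a g

variable {S : Finset Nat.Primes}

open scoped Fermat.Agent.ClassField in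
/-- Hilbert 90 for the ideles supported on `S`, for a subgroup containing a level. -/
theorem exists_d0_jmod (H : Subgroup Γ) (hH : ∃ U ∈ (levels S).carrier, U ≤ H) (a : H → JMod S)
    (hcoc : ∀ g h : H, a (g * h) = (g : Γ) • a h + a g)
    (hsm : ∃ U ∈ (levels S).carrier, ∀ g s : H, (s : Γ) ∈ U → a (g * s) = a g) :
    ∃ x : JMod S, ∀ g : H, (g : Γ) • x - x = a g := by
  classical
  obtain ⟨U₁, hU₁, hU₁H⟩ := hH
  obtain ⟨U₂, hU₂, hlev⟩ := hsm
  obtain ⟨U, hU, hUU₁, hUU₂⟩ := (levels S).directed U₁ hU₁ U₂ hU₂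
  have hUH : U ≤ H := hUU₁.trans hU₁H
  have hnorm := (levels S).normal U hU
  obtain ⟨F, hF, hn, hFU⟩ := id hU
  have := hF.1
  have ha1 : a 1 = 0 := by simpa using hcoc 1 1
  have haU : ∀ u : H, (u : Γ) ∈ U → a u = 0 := fun u hu => by
    simpa [ha1] using hlev 1 u (hUU₂ hu)
  -- the local coboundary at each representative
  have hloc : ∀ (q : Nat.Primes) (s : Γ), ∃ X : LUnits q, ∀ (δ : LocalGal q)
      (hδ : s⁻¹ * locHom q δ * s ∈ H), δ • X - X = compAt q s (a ⟨_, hδ⟩) := by
    intro q s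
    let Hs : Subgroup (LocalGal q) := H.comap ((MulAut.conj s⁻¹).toMonoidHom.comp (locHom q))
    have hmem : ∀ δ : Hs, s⁻¹ * locHom q (δ : LocalGal q) * s ∈ H := fun δ => by
      have h := δ.2
      rw [Subgroup.mem_comap] at h
      simpa using h
    obtain ⟨X, hX⟩ := exists_d0_local q Hs.subtype F (fun δ => compAt q s (a ⟨_, hmem δ⟩))
      (fun δ ε => by
        have h1 : (⟨_, hmem (δ * ε)⟩ : H) = ⟨_, hmem δ⟩ * ⟨_, hmem ε⟩ := Subtype.ext (by
          simp only [Subgroup.coe_mul, map_mul]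
          group)
        show compAt q s (a ⟨_, hmem (δ * ε)⟩) = _
        rw [h1, hcoc, map_add, compAt_smul]
        show compAt q (s * (s⁻¹ * locHom q (δ : LocalGal q) * s)) _ + _ = _
        rw [show s * (s⁻¹ * locHom q (δ : LocalGal q) * s) = locHom q (δ : LocalGal q) * s by group,
          compAt_locHom_mul]
        rfl)
      (fun δ ε hε => by
        have hεU : s⁻¹ * locHom q (ε : LocalGal q) * s ∈ U := by
          have := hnorm.conj_mem _ (hFU ▸ hε : locHom q (Hs.subtype ε) ∈ U) s⁻¹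
          simpa using this
        have h1 : (⟨_, hmem (δ * ε)⟩ : H) = ⟨_, hmem δ⟩ * ⟨_, hmem ε⟩ := Subtype.ext (by
          simp only [Subgroup.coe_mul, map_mul]
          group)
        show compAt q s (a ⟨_, hmem (δ * ε)⟩) = compAt q s (a ⟨_, hmem δ⟩)
        rw [h1, hlev _ _ (hUU₂ hεU)])
    refine ⟨X, fun δ hδ => ?_⟩
    have hδ' : δ ∈ Hs := by
      rw [Subgroup.mem_comap]
      simpa using hδ
    exact hX ⟨δ, hδ'⟩
  choose X hX using hloc
  -- representatives of the double cosets `image(locHom q) \ Γ / H`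
  let img : ∀ q : Nat.Primes, Subgroup Γ := fun q => (locHom q).range
  let rep : ∀ q : Nat.Primes, Γ → Γ := fun q σ =>
    Quotient.out (s := DoubleCoset.setoid (img q : Set Γ) (H : Set Γ))
      (Quotient.mk _ σ)
  have hrep : ∀ q σ, ∃ (τ : LocalGal q) (h : H), σ = locHom q τ * rep q σ * h := by
    intro q σ
    have h1 : DoubleCoset.setoid (img q : Set Γ) (H : Set Γ) (rep q σ) σ :=
      Quotient.mk_out (s := DoubleCoset.setoid (img q : Set Γ) (H : Set Γ)) σ
    obtain ⟨a, ⟨τ, rfl⟩, b, hb, hab⟩ := DoubleCoset.rel_iff.mp h1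
    exact ⟨τ, ⟨b, hb⟩, hab⟩
  choose t η hdec using hrep
  have hreps : ∀ q (τ : LocalGal q) (σ : Γ) (h : H), rep q (locHom q τ * σ * h) = rep q σ :=
    fun q τ σ h => congrArg Quotient.out (Quotient.sound
      (s := DoubleCoset.setoid (img q : Set Γ) (H : Set Γ))
      (DoubleCoset.rel_iff.mpr ⟨(locHom q τ)⁻¹, (img q).inv_mem ⟨τ, rfl⟩, (h : Γ)⁻¹,
        H.inv_mem h.2, by group⟩))
  let φ : ∀ q : Nat.Primes, Γ → LUnits q := fun q σ =>
    t q σ • X q (rep q σ) + compAt q (locHom q (t q σ) * rep q σ) (a (η q σ))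
  have hind : ∀ q (τ : LocalGal q) (σ : Γ) (h : H), σ = locHom q τ * rep q σ * h →
      τ • X q (rep q σ) + compAt q (locHom q τ * rep q σ) (a h) = φ q σ := by
    intro q τ σ h he
    let s := rep q σ
    let δ : LocalGal q := τ⁻¹ * t q σ
    have he' : locHom q τ * s * h = locHom q (t q σ) * s * η q σ := he.symm.trans (hdec q σ)
    have hh0 : s⁻¹ * locHom q δ * s = (h : Γ) * (η q σ : Γ)⁻¹ := by
      rw [eq_mul_inv_iff_mul_eq, map_mul, map_inv]
      calc s⁻¹ * ((locHom q τ)⁻¹ * locHom q (t q σ)) * s * (η q σ : Γ)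
          = s⁻¹ * (locHom q τ)⁻¹ * (locHom q (t q σ) * s * (η q σ : Γ)) := by group
        _ = s⁻¹ * (locHom q τ)⁻¹ * (locHom q τ * s * h) := by rw [he']
        _ = h := by group
    have hδ : s⁻¹ * locHom q δ * s ∈ H := hh0 ▸ H.mul_mem h.2 (H.inv_mem (η q σ).2)
    have hh : h = ⟨_, hδ⟩ * η q σ := Subtype.ext (by
      show (h : Γ) = s⁻¹ * locHom q δ * s * η q σ
      rw [hh0, inv_mul_cancel_right])
    show τ • X q s + compAt q (locHom q τ * s) (a h) =
      t q σ • X q s + compAt q (locHom q (t q σ) * s) (a (η q σ))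
    have h2 : locHom q τ * s * (s⁻¹ * locHom q δ * s) = locHom q (t q σ) * s := by
      rw [map_mul, map_inv]; group
    rw [hh, hcoc, map_add, compAt_smul, h2, compAt_locHom_mul q τ s, ← hX q s δ hδ, smul_sub,
      ← mul_smul, show τ * δ = t q σ from mul_inv_cancel_left τ _]
    abel
  have hequiv : ∀ q ∈ S, ∀ (τ : LocalGal q) (σ : Γ), φ q (locHom q τ * σ) = τ • φ q σ := by
    intro q _ τ σ
    have hr : rep q (locHom q τ * σ) = rep q σ := by simpa using hreps q τ σ 1
    rw [← hind q (τ * t q σ) (locHom q τ * σ) (η q σ)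
      (by rw [hr, map_mul, mul_assoc (locHom q τ), mul_assoc (locHom q τ), ← hdec q σ])]
    rw [hr, map_mul, mul_assoc, compAt_locHom_mul, mul_smul, ← smul_add]
  have hmulH : ∀ q (σ : Γ) (g : H), φ q (σ * g) = φ q σ + compAt q σ (a g) := by
    intro q σ g
    have hr : rep q (σ * g) = rep q σ := by simpa using hreps q 1 σ g
    rw [← hind q (t q σ) (σ * g) (η q σ * g)
      (by rw [hr, Subgroup.coe_mul, ← mul_assoc, ← hdec q σ]), hr, hcoc, map_add, compAt_smul,
      ← hdec q σ]
    simp only [φ]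
    abel
  obtain ⟨x, -, hx⟩ := exists_jmod φ hequiv U hU fun q _ σ u hu => by
    rw [show u = ((⟨u, hUH hu⟩ : H) : Γ) from rfl, hmulH, haU _ hu, map_zero, add_zero]
  refine ⟨x, fun g => jmod_ext fun q hq σ => ?_⟩
  rw [map_sub, compAt_smul, hx q hq, hx q hq, hmulH, add_sub_cancel_left]

namespace Presentation

variable {p : ℕ} {M N P R Y : Type*} [AddCommGroup M]
    [DistribMulAction Γ M] [AddCommGroup N] [DistribMulAction Γ N] [AddCommGroup P]
    [DistribMulAction Γ P] [AddCommGroup R] [DistribMulAction Γ R] [MulAction Γ Y]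
    (D : Presentation S p M N P R Y)

theorem fixed_R {u : Γ} (hu : u ∈ D.U₀) (r : R) : u • r = r :=
  D.incl_injective (by rw [map_smul, D.fixed_P u hu])

theorem stabilizer_le (y : Y) : D.U₀ ≤ MulAction.stabilizer Γ y := fun u hu =>
  D.basis.injective ((D.smul_basis u y).symm.trans (D.fixed_P u hu _))

theorem nsmul_mem_range (x : P) : ∃ r, D.incl r = p • x :=
  (D.exact _).mp (by rw [map_nsmul, D.p_smul_N])

/-- `M → CHom P E`. -/
def iMap : M →+[Γ] CHom P (EMod S) := (CHom.pre D.π).comp D.mu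

theorem iMap_apply (m : M) (x : P) : D.iMap m x = D.mu m (D.π x) := rfl

theorem iMap_injective : Function.Injective D.iMap := fun m m' h =>
  D.mu_bijective.1 (CHom.ext' fun n => by
    obtain ⟨x, rfl⟩ := D.π_surjective n
    exact congrArg (fun z : CHom P (EMod S) => z x) h)

theorem exists_iMap_eq {f : CHom P (EMod S)} (hf : ∀ r, f (D.incl r) = 0) :
    ∃ m, D.iMap m = f := by
  have hker : (D.π : P →+ N).ker ≤ f.hom.ker := fun x hx => by
    obtain ⟨r, rfl⟩ := (D.exact x).mp hx
    exact hf r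
  obtain ⟨m, hm⟩ := D.mu_bijective.2
    ⟨(D.π : P →+ N).liftOfSurjective D.π_surjective ⟨f.hom, hker⟩⟩
  refine ⟨m, CHom.ext' fun x => ?_⟩
  rw [D.iMap_apply, hm]
  exact AddMonoidHom.liftOfRightInverse_comp_apply (D.π : P →+ N) _ _ _ x

variable [Fact p.Prime]

/-- Homomorphisms on `R` with values in a `p`-divisible group extend to `P`. -/
theorem exists_extension {X : Type*} [AddCommGroup X] (hdiv : ∀ x : X, ∃ y, p • y = x)
    (f : R →+ X) : ∃ F : P →+ X, ∀ r, F (D.incl r) = f r := by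
  let R' : AddSubgroup P := (D.incl : R →+ P).range
  let e : R ≃+ R' := AddMonoidHom.ofInjective (f := (D.incl : R →+ P)) D.incl_injective
  obtain ⟨F, hF⟩ := exists_extend p D.basis R' (fun v => by
    obtain ⟨r, hr⟩ := D.nsmul_mem_range v
    exact ⟨r, hr⟩) hdiv (f.comp e.symm.toAddMonoidHom)
  exact ⟨F, fun r => (hF (e r)).trans (congrArg f (e.symm_apply_apply r))⟩

variable [Finite Y] [Module.Free ℤ R] [Module.Finite ℤ R]

include D in
omit [Fact p.Prime] [Module.Free ℤ R] [Module.Finite ℤ R] in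
theorem discrete_CHom_P {X : Type*} [AddCommGroup X] [DistribMulAction Γ X]
    (hX : (levels S).Discrete X) : (levels S).Discrete (CHom P X) :=
  chom_discrete D.basis D.basis.span_eq ⟨D.U₀, D.mem_levels, fun s hs r => D.fixed_P s hs r⟩ hX

include D in
theorem discrete_CHom_R {X : Type*} [AddCommGroup X] [DistribMulAction Γ X]
    (hX : (levels S).Discrete X) : (levels S).Discrete (CHom R X) :=
  chom_discrete (Module.Free.chooseBasis ℤ R) (Module.Free.chooseBasis ℤ R).span_eq
    ⟨D.U₀, D.mem_levels, fun _ hs r => D.fixed_R hs r⟩ hX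

include D in
theorem discrete_M : (levels S).Discrete M := fun m => by
  obtain ⟨U, hU, h⟩ := D.discrete_CHom_P discrete_EMod (D.iMap m)
  exact ⟨U, hU, fun s hs => D.iMap_injective (by rw [map_smul, h s hs])⟩

omit [Fact p.Prime] [Finite Y] [Module.Free ℤ R] [Module.Finite ℤ R] in
theorem h1_P {X : Type*} [AddCommGroup X] [DistribMulAction Γ X] (f : Γ → CHom P X)
    (hfs : (levels S).Smooth₁ f) (hf : d1 f = 0) (good : (f : Γ → CHom P X) → Prop)
    (hgood : good f)
    (key : ∀ H : Subgroup Γ, (∃ U ∈ (levels S).carrier, U ≤ H) → ∀ y : Y,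
      H = MulAction.stabilizer Γ y →
      (∀ g h : H, f ((g * h : H) : Γ) (D.basis y) = (g : Γ) • f h (D.basis y) + f g (D.basis y)) →
      (∃ U ∈ (levels S).carrier, ∀ g s : H, (s : Γ) ∈ U →
        f ((g * s : H) : Γ) (D.basis y) = f g (D.basis y)) →
      good f → ∃ x : X, ∀ g : H, (g : Γ) • x - x = f g (D.basis y)) :
    ∃ Φ, d0 Φ = f := by
  refine exists_d0_eq_of_stabilizer D.basis D.smul_basis f hf fun y => ?_
  obtain ⟨U, hU, hlev⟩ := hfs
  have hcy : ∀ g h : MulAction.stabilizer Γ y,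
      f ((g * h : MulAction.stabilizer Γ y) : Γ) (D.basis y) =
        (g : Γ) • f h (D.basis y) + f g (D.basis y) := fun g h => by
    have h1 := congrArg (fun z : CHom P X => z (D.basis y)) (congrFun hf ((g : Γ), (h : Γ)))
    have hfix : (g : Γ)⁻¹ • D.basis y = D.basis y := by
      rw [inv_smul_eq_iff, D.smul_basis, MulAction.mem_stabilizer_iff.mp g.2]
    simp only [d1, Pi.zero_apply, CHom.add_apply, CHom.sub_apply, CHom.smul_apply,
      CHom.zero_apply, hfix] at h1
    rw [Subgroup.coe_mul, eq_comm, ← sub_eq_zero, ← h1]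
    abel
  obtain ⟨x, hx⟩ := key (MulAction.stabilizer Γ y) ⟨D.U₀, D.mem_levels, D.stabilizer_le y⟩ y rfl
    hcy ⟨U, hU, fun g s hs => congrArg (fun z : CHom P X => z (D.basis y))
      (hlev (g : Γ) (s : Γ) hs)⟩ hgood
  exact ⟨x, fun u hu => hx ⟨u, hu⟩⟩

/-- The Poitou–Tate diagram of a presentation. -/
def ptDiagram (hC : CTorsion S p) :
    PTDiagram (levels S) p M (CHom P (EMod S)) (CHom R (EMod S)) (CHom P (JMod S))
      (CHom R (JMod S)) (CHom P (CMod S)) (CHom R (CMod S)) where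
  i := D.iMap
  rE := CHom.pre D.incl
  rJ := CHom.pre D.incl
  rC := CHom.pre D.incl
  aP := CHom.post (diagA S)
  aR := CHom.post (diagA S)
  πP := CHom.post (projA S)
  πR := CHom.post (projA S)
  i_inj := D.iMap_injective
  rE_surj f := by
    obtain ⟨F, hF⟩ := D.exists_extension
      (exists_nsmul_eq (Fact.out : p.Prime).ne_zero D.dvd_mem) f.hom
    exact ⟨⟨F⟩, CHom.ext' hF⟩
  exact_E f := by
    constructor
    · exact fun h => D.exists_iMap_eq fun r => congrArg (fun z : CHom R (EMod S) => z r) h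
    · rintro ⟨m, rfl⟩
      refine CHom.ext' fun r => ?_
      show D.mu m (D.π (D.incl r)) = 0
      rw [(D.exact _).mpr ⟨r, rfl⟩]
      exact map_zero (D.mu m).hom
  aP_inj := chom_post_injective
    (diagA_injective ⟨⟨p, Fact.out⟩, D.dvd_mem ⟨p, Fact.out⟩ dvd_rfl⟩)
  aR_inj := chom_post_injective
    (diagA_injective ⟨⟨p, Fact.out⟩, D.dvd_mem ⟨p, Fact.out⟩ dvd_rfl⟩)
  πP_surj :=
    haveI := Module.Free.of_basis D.basis
    CHom.post_surjective projA_surjective
  πR_surj := CHom.post_surjective projA_surjective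
  exact_P := chom_post_exact
    (diagA_injective ⟨⟨p, Fact.out⟩, D.dvd_mem ⟨p, Fact.out⟩ dvd_rfl⟩) projA_eq_zero_iff
  exact_R := chom_post_exact
    (diagA_injective ⟨⟨p, Fact.out⟩, D.dvd_mem ⟨p, Fact.out⟩ dvd_rfl⟩) projA_eq_zero_iff
  comm_a _ := rfl
  comm_π _ := rfl
  discrete_M := D.discrete_M
  discrete_PE := D.discrete_CHom_P discrete_EMod
  discrete_PJ := D.discrete_CHom_P discrete_JMod
  discrete_RJ := D.discrete_CHom_R discrete_JMod
  p_smul_M := D.p_smul_M
  h1_PJ f hfs hf := D.h1_P f hfs hf (fun _ => True) trivial fun H hH y _ hc hs _ =>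
    exists_d0_jmod H hH (fun g => f g (D.basis y)) hc hs
  h1_PC f hfs hf hp := D.h1_P f hfs hf (fun f => ∃ y, d0 y = p • f) hp
    fun H hH y hy hc hs ⟨z, hz⟩ => by
      subst hy
      refine hC _ hH (fun g => f g (D.basis y)) hc hs ⟨z (D.basis y), fun g => ?_⟩
      have h1 := congrArg (fun w : CHom P (CMod S) => w (D.basis y)) (congrFun hz (g : Γ))
      simp only [d0, CHom.sub_apply, CHom.smul_apply, Pi.smul_apply, CHom.nsmul_apply] at h1
      rwa [D.smul_basis, (inv_smul_eq_iff).mpr (MulAction.mem_stabilizer_iff.mp g.2).symm] at h1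

end Presentation

end Fermat.Agent.ClassField.S55
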