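import Fermat.Agent.ClassField.S55.Bridge.Units
import Fermat.Agent.ClassField.Idele.Class

/-!
# S55 bridge: the modules `E → J → C`

`E`: units outside `S` of the maximal extension unramified outside `S`; `J`: its ideles supported
on `S`; `C`: their quotient.
-/

set_option autoImplicit false

noncomputable section

namespace Fermat.Agent.ClassField.S55

open Idele IntermediateField

local notation "Qb" => AlgebraicClosure ℚ
local notation "Γ" => (AlgebraicClosure ℚ ≃ₐ[ℚ] AlgebraicClosure ℚ)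

/-- Being fixed by some level. -/
def IsFixed (S : Finset Nat.Primes) {X : Type*} [SMul Γ X] (x : X) : Prop :=
  ∃ U ∈ (levels S).carrier, ∀ s ∈ U, s • x = x

theorem IsFixed.smul {S : Finset Nat.Primes} {X : Type*} [MulAction Γ X] {x : X}
    (hx : IsFixed S x) (σ : Γ) : IsFixed S (σ • x) := by
  obtain ⟨U, hU, h⟩ := hx
  refine ⟨U, hU, fun s hs => ?_⟩
  have h1 : σ⁻¹ * s * σ ∈ U := by
    have := ((levels S).normal U hU).conj_mem s hs σ⁻¹
    simpa using this
  conv_rhs => rw [← h _ h1, ← mul_smul, show σ * (σ⁻¹ * s * σ) = s * σ by group, mul_smul]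

theorem isFixed_one {S : Finset Nat.Primes} {X : Type*} [Monoid X] [MulDistribMulAction Γ X] :
    IsFixed S (1 : X) :=
  (levels S).nonempty.elim fun U hU => ⟨U, hU, fun s _ => smul_one s⟩

theorem IsFixed.mul {S : Finset Nat.Primes} {X : Type*} [Monoid X] [MulDistribMulAction Γ X]
    {x y : X} (hx : IsFixed S x) (hy : IsFixed S y) : IsFixed S (x * y) := by
  obtain ⟨U, hU, h⟩ := hx
  obtain ⟨V, hV, h'⟩ := hy
  obtain ⟨W, hW, hWU, hWV⟩ := (levels S).directed U hU V hV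
  exact ⟨W, hW, fun s hs => by rw [smul_mul', h s (hWU hs), h' s (hWV hs)]⟩

theorem IsFixed.inv {S : Finset Nat.Primes} {X : Type*} [Group X] [MulDistribMulAction Γ X]
    {x : X} (hx : IsFixed S x) : IsFixed S x⁻¹ := by
  obtain ⟨U, hU, h⟩ := hx
  exact ⟨U, hU, fun s hs => by rw [smul_inv', h s hs]⟩

variable (S : Finset Nat.Primes)

/-- Units outside `S` of the maximal extension unramified outside `S`. -/
def sUnits : Subgroup Qbˣ where
  carrier := {x | IsFixed S x ∧ ∀ ℓ ∉ S, ∀ ι : Emb ℓ, ‖ι (x : Qb)‖ = 1}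
  one_mem' := ⟨isFixed_one, fun ℓ _ ι => by simp⟩
  mul_mem' := fun {a b} ha hb => ⟨ha.1.mul hb.1, fun ℓ hℓ ι => by
    rw [Units.val_mul, map_mul, norm_mul, ha.2 ℓ hℓ ι, hb.2 ℓ hℓ ι, mul_one]⟩
  inv_mem' := fun {a} ha => ⟨ha.1.inv, fun ℓ hℓ ι => by
    rw [Units.val_inv_eq_inv_val, map_inv₀, norm_inv, ha.2 ℓ hℓ ι, inv_one]⟩

variable {S}

theorem mem_sUnits {x : Qbˣ} :
    x ∈ sUnits S ↔ IsFixed S x ∧ ∀ ℓ ∉ S, ∀ ι : Emb ℓ, ‖ι (x : Qb)‖ = 1 := Iff.rfl

theorem smul_mem_sUnits (σ : Γ) {x : Qbˣ} (hx : x ∈ sUnits S) : σ • x ∈ sUnits S :=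
  ⟨hx.1.smul σ, fun ℓ hℓ ι => hx.2 ℓ hℓ (globalComp ι σ)⟩

instance : MulDistribMulAction Γ (sUnits S) where
  smul σ x := ⟨σ • (x : Qbˣ), smul_mem_sUnits σ x.2⟩
  one_smul x := Subtype.ext (one_smul Γ (x : Qbˣ))
  mul_smul σ τ x := Subtype.ext (mul_smul σ τ (x : Qbˣ))
  smul_mul σ x y := Subtype.ext (smul_mul' σ (x : Qbˣ) (y : Qbˣ))
  smul_one σ := Subtype.ext (smul_one σ)

@[simp] theorem coe_smul_sUnits (σ : Γ) (x : sUnits S) :
    ((σ • x : sUnits S) : Qbˣ) = σ • (x : Qbˣ) := rfl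

variable (S)

/-- Ideles supported on `S`, fixed by some level unramified outside `S`. -/
def sIdeles : Subgroup IdeleGroup where
  carrier := {f | IsFixed S f ∧ ∀ ℓ ∉ S, ∀ ι, (f : Raw) ℓ ι = 1}
  one_mem' := ⟨isFixed_one, fun ℓ _ ι => rfl⟩
  mul_mem' := fun {a b} ha hb => ⟨ha.1.mul hb.1, fun ℓ hℓ ι => by
    simp [ha.2 ℓ hℓ ι, hb.2 ℓ hℓ ι]⟩
  inv_mem' := fun {a} ha => ⟨ha.1.inv, fun ℓ hℓ ι => by simp [ha.2 ℓ hℓ ι]⟩

variable {S}

theorem mem_sIdeles {f : IdeleGroup} :
    f ∈ sIdeles S ↔ IsFixed S f ∧ ∀ ℓ ∉ S, ∀ ι, (f : Raw) ℓ ι = 1 := Iff.rfl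

theorem smul_mem_sIdeles (σ : Γ) {f : IdeleGroup} (hf : f ∈ sIdeles S) : σ • f ∈ sIdeles S :=
  ⟨hf.1.smul σ, fun ℓ hℓ _ => hf.2 ℓ hℓ _⟩

instance : MulDistribMulAction Γ (sIdeles S) where
  smul σ x := ⟨σ • (x : IdeleGroup), smul_mem_sIdeles σ x.2⟩
  one_smul x := Subtype.ext (one_smul Γ (x : IdeleGroup))
  mul_smul σ τ x := Subtype.ext (mul_smul σ τ (x : IdeleGroup))
  smul_mul σ x y := Subtype.ext (smul_mul' σ (x : IdeleGroup) (y : IdeleGroup))
  smul_one σ := Subtype.ext (smul_one σ)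

@[simp] theorem coe_smul_sIdeles (σ : Γ) (x : sIdeles S) :
    ((σ • x : sIdeles S) : IdeleGroup) = σ • (x : IdeleGroup) := rfl

variable (S)

open Classical in
/-- Forget the components outside `S`. -/
def truncate : IdeleGroup →* IdeleGroup where
  toFun f := ⟨fun ℓ ι => if ℓ ∈ S then (f : Raw) ℓ ι else 1, by
    obtain ⟨he, ⟨K, hK, hfix⟩, T, hT⟩ := f.2
    refine ⟨fun ℓ τ ι => ?_, ⟨K, hK, fun σ hσ => Raw.ext fun ℓ ι => ?_⟩,
      ⟨T, fun ℓ hℓ ι => ?_⟩⟩
    · show ((if ℓ ∈ S then (f : Raw) ℓ (localComp τ ι) else 1 : (PadicAlgCl (ℓ : ℕ))ˣ) :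
          PadicAlgCl (ℓ : ℕ)) =
        τ ((if ℓ ∈ S then (f : Raw) ℓ ι else 1 : (PadicAlgCl (ℓ : ℕ))ˣ) : PadicAlgCl (ℓ : ℕ))
      split
      · exact he ℓ τ ι
      · exact (map_one τ).symm
    · show (if ℓ ∈ S then (f : Raw) ℓ (globalComp ι σ) else 1) =
        (if ℓ ∈ S then (f : Raw) ℓ ι else 1)
      split
      · exact congrFun (congrFun (hfix σ hσ) ℓ) ι
      · rfl
    · show ‖((if ℓ ∈ S then (f : Raw) ℓ ι else 1 : (PadicAlgCl (ℓ : ℕ))ˣ) :
          PadicAlgCl (ℓ : ℕ))‖ = 1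
      split
      · exact hT ℓ hℓ ι
      · exact norm_one⟩
  map_one' := Subtype.ext (Raw.ext fun ℓ ι => by simp)
  map_mul' f g := Subtype.ext (Raw.ext fun ℓ ι => by
    show (if ℓ ∈ S then ((f * g : IdeleGroup) : Raw) ℓ ι else 1) =
      (if ℓ ∈ S then (f : Raw) ℓ ι else 1) * (if ℓ ∈ S then (g : Raw) ℓ ι else 1)
    split <;> simp)

open Classical in
theorem truncate_apply (f : IdeleGroup) (ℓ : Nat.Primes) (ι : Emb ℓ) :
    (truncate S f : Raw) ℓ ι = if ℓ ∈ S then (f : Raw) ℓ ι else 1 := rfl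

theorem smul_truncate (σ : Γ) (f : IdeleGroup) : σ • truncate S f = truncate S (σ • f) :=
  Subtype.ext (Raw.ext fun _ _ => rfl)

/-- The diagonal map from units outside `S` to ideles supported on `S`. -/
def diag : sUnits S →* sIdeles S :=
  ((truncate S).comp (principal.comp (sUnits S).subtype)).codRestrict (sIdeles S) fun x => by
    obtain ⟨⟨U, hU, hfix⟩, -⟩ := x.2
    refine ⟨⟨U, hU, fun s hs => ?_⟩, fun ℓ hℓ ι => by simp [truncate_apply, hℓ]⟩
    show s • truncate S (principal (x : Qbˣ)) = truncate S (principal (x : Qbˣ))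
    rw [smul_truncate, smul_principal, hfix s hs]

variable {S}

theorem coe_diag (x : sUnits S) :
    ((diag S x : sIdeles S) : IdeleGroup) = truncate S (principal (x : Qbˣ)) := rfl

theorem diag_apply_of_mem (x : sUnits S) {ℓ : Nat.Primes} (hℓ : ℓ ∈ S) (ι : Emb ℓ) :
    ((((diag S x : sIdeles S) : IdeleGroup) : Raw) ℓ ι : PadicAlgCl (ℓ : ℕ)) =
      ι ((x : Qbˣ) : Qb) := by
  rw [coe_diag, truncate_apply, if_pos hℓ]
  rfl

theorem smul_diag (σ : Γ) (x : sUnits S) : σ • diag S x = diag S (σ • x) := by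
  refine Subtype.ext ?_
  rw [coe_smul_sIdeles, coe_diag, coe_diag, smul_truncate, smul_principal]
  rfl

theorem diag_injective (hS : S.Nonempty) : Function.Injective (diag S) := by
  intro x y h
  obtain ⟨ℓ, hℓ⟩ := hS
  obtain ⟨ι⟩ := nonempty_emb ℓ
  have h1 := diag_apply_of_mem x hℓ ι
  rw [h, diag_apply_of_mem y hℓ ι] at h1
  exact Subtype.ext (Units.ext (ι.toRingHom.injective h1.symm))

variable (S)

/-- Classes of ideles supported on `S` modulo units outside `S`. -/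
abbrev sClasses : Type := ↥(sIdeles S) ⧸ (diag S).range

/-- The action of an automorphism on classes. -/
def sClassSMul (σ : Γ) : sClasses S →* sClasses S :=
  QuotientGroup.map _ _ (MulDistribMulAction.toMonoidHom (sIdeles S) σ) (by
    rintro _ ⟨x, rfl⟩
    exact ⟨σ • x, (smul_diag σ x).symm⟩)

instance : MulDistribMulAction Γ (sClasses S) where
  smul σ c := sClassSMul S σ c
  one_smul c := by
    obtain ⟨f, rfl⟩ := QuotientGroup.mk'_surjective _ c
    exact congrArg (QuotientGroup.mk' (diag S).range) (one_smul Γ f)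
  mul_smul σ τ c := by
    obtain ⟨f, rfl⟩ := QuotientGroup.mk'_surjective _ c
    exact congrArg (QuotientGroup.mk' (diag S).range) (mul_smul σ τ f)
  smul_mul σ c d := map_mul (sClassSMul S σ) c d
  smul_one σ := map_one (sClassSMul S σ)

/-- `E`, additively. -/
abbrev EMod : Type := Additive ↥(sUnits S)
/-- `J`, additively. -/
abbrev JMod : Type := Additive ↥(sIdeles S)
/-- `C`, additively. -/
abbrev CMod : Type := Additive (sClasses S)

instance : DistribMulAction Γ (EMod S) where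
  smul σ x := Additive.ofMul (σ • x.toMul)
  one_smul x := congrArg Additive.ofMul (one_smul Γ x.toMul)
  mul_smul σ τ x := congrArg Additive.ofMul (mul_smul σ τ x.toMul)
  smul_zero σ := congrArg Additive.ofMul (smul_one σ)
  smul_add σ x y := congrArg Additive.ofMul (smul_mul' σ x.toMul y.toMul)

instance : DistribMulAction Γ (JMod S) where
  smul σ x := Additive.ofMul (σ • x.toMul)
  one_smul x := congrArg Additive.ofMul (one_smul Γ x.toMul)
  mul_smul σ τ x := congrArg Additive.ofMul (mul_smul σ τ x.toMul)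
  smul_zero σ := congrArg Additive.ofMul (smul_one σ)
  smul_add σ x y := congrArg Additive.ofMul (smul_mul' σ x.toMul y.toMul)

instance : DistribMulAction Γ (CMod S) where
  smul σ x := Additive.ofMul (σ • x.toMul)
  one_smul x := congrArg Additive.ofMul (one_smul Γ x.toMul)
  mul_smul σ τ x := congrArg Additive.ofMul (mul_smul σ τ x.toMul)
  smul_zero σ := congrArg Additive.ofMul (smul_one σ)
  smul_add σ x y := congrArg Additive.ofMul (smul_mul' σ x.toMul y.toMul)

/-- `E → J`. -/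
def diagA : EMod S →+[Γ] JMod S where
  toFun x := Additive.ofMul (diag S x.toMul)
  map_zero' := congrArg Additive.ofMul (map_one (diag S))
  map_add' x y := congrArg Additive.ofMul (map_mul (diag S) x.toMul y.toMul)
  map_smul' σ x := congrArg Additive.ofMul (smul_diag σ x.toMul).symm

/-- `J → C`. -/
def projA : JMod S →+[Γ] CMod S where
  toFun x := Additive.ofMul (QuotientGroup.mk' (diag S).range x.toMul)
  map_zero' := rfl
  map_add' _ _ := rfl
  map_smul' _ _ := rfl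

variable {S}

theorem diagA_injective (hS : S.Nonempty) : Function.Injective (diagA S) :=
  fun _ _ h => Additive.toMul.injective (diag_injective hS (Additive.ofMul.injective h))

theorem projA_surjective : Function.Surjective (projA S) := fun c => by
  obtain ⟨f, hf⟩ := QuotientGroup.mk'_surjective _ c.toMul
  exact ⟨Additive.ofMul f, congrArg Additive.ofMul hf⟩

theorem projA_eq_zero_iff (x : JMod S) : projA S x = 0 ↔ ∃ e, diagA S e = x := by
  constructor
  · intro h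
    obtain ⟨u, hu⟩ := (QuotientGroup.eq_one_iff _).mp (Additive.ofMul.injective h)
    exact ⟨Additive.ofMul u, congrArg Additive.ofMul hu⟩
  · rintro ⟨e, rfl⟩
    exact congrArg Additive.ofMul ((QuotientGroup.eq_one_iff _).mpr ⟨e.toMul, rfl⟩)

theorem discrete_EMod : (levels S).Discrete (EMod S) := fun x => by
  obtain ⟨U, hU, h⟩ := (x.toMul : sUnits S).2.1
  exact ⟨U, hU, fun s hs => congrArg Additive.ofMul (Subtype.ext (h s hs))⟩

theorem discrete_JMod : (levels S).Discrete (JMod S) := fun x => by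
  obtain ⟨U, hU, h⟩ := (x.toMul : sIdeles S).2.1
  exact ⟨U, hU, fun s hs => congrArg Additive.ofMul (Subtype.ext (h s hs))⟩

theorem discrete_CMod : (levels S).Discrete (CMod S) := fun c => by
  obtain ⟨x, rfl⟩ := projA_surjective c
  obtain ⟨U, hU, h⟩ := discrete_JMod x
  exact ⟨U, hU, fun s hs => by rw [← map_smul, h s hs]⟩

/-- An element of `ℚ̄` fixed by a level lies in the field of the level. -/
theorem exists_field_of_isFixed {x : Qbˣ} (hx : IsFixed S x) :
    ∃ F : IntermediateField ℚ Qb, F.IsUnramifiedOutside S ∧ (x : Qb) ∈ F := by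
  obtain ⟨_, ⟨F, hF, -, rfl⟩, h⟩ := hx
  exact ⟨F, hF, mem_of_forall_fixingSubgroup F fun σ hσ => congrArg Units.val (h σ hσ)⟩

/-- An element lying in an extension unramified outside `S` is fixed by a level. -/
theorem isFixed_of_mem {F : IntermediateField ℚ Qb} (hF : F.IsUnramifiedOutside S) {x : Qbˣ}
    (hx : (x : Qb) ∈ F) : IsFixed S x := by
  obtain ⟨N, hle, hN, hNn⟩ := exists_normal_isUnramifiedOutside hF
  exact ⟨_, ⟨N, hN, hNn, rfl⟩, fun s hs => Units.ext
    ((IntermediateField.mem_fixingSubgroup_iff _ _).mp hs _ (hle hx))⟩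

/-- `E` is `n`-divisible for `n` supported in `S`. -/
theorem exists_nsmul_eq {n : ℕ} (hn0 : n ≠ 0) (hn : ∀ q : Nat.Primes, (q : ℕ) ∣ n → q ∈ S)
    (x : EMod S) : ∃ y : EMod S, n • y = x := by
  obtain ⟨⟨x, hfix, hunit⟩, rfl⟩ := Additive.ofMul.surjective x
  obtain ⟨F, hF, hxF⟩ := exists_field_of_isFixed hfix
  obtain ⟨y, hy⟩ := IsAlgClosed.exists_pow_nat_eq (x : Qb) (Nat.pos_of_ne_zero hn0)
  have hy0 : y ≠ 0 := fun h => x.ne_zero (by rw [← hy, h, zero_pow hn0])
  have hF' := isUnramifiedOutside_adjoin hF hn0 hn hy0 (hy ▸ hxF) (fun q hq ι => hy ▸ hunit q hq ι)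
  have hmem : Units.mk0 y hy0 ∈ sUnits S := by
    refine ⟨isFixed_of_mem hF'
      ((le_sup_right : ℚ⟮y⟯ ≤ F ⊔ ℚ⟮y⟯) (mem_adjoin_simple_self ℚ y)), fun q hq ι => ?_⟩
    have h1 := hunit q hq ι
    rw [← hy, map_pow, norm_pow] at h1
    exact (pow_eq_one_iff_of_nonneg (norm_nonneg _) hn0).mp h1
  refine ⟨Additive.ofMul ⟨_, hmem⟩, ?_⟩
  rw [← ofMul_pow]
  exact congrArg Additive.ofMul (Subtype.ext (Units.ext (by simpa using hy)))

end Fermat.Agent.ClassField.S55
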