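import Fermat.Agent.ClassField.S55.Bridge.Levels
import Fermat.Agent.ClassField.S55.FiniteDuality
import Fermat.Agent.ClassField.S55.Final.Level

/-!
# S55 bridge: `sha₁` from the locally trivial classes of the finite levels
-/

set_option autoImplicit false

noncomputable section

open CategoryTheory groupCohomology ExtCitation

namespace Fermat.Agent.ClassField.S55

open Idele IntermediateField

local notation "Qb" => AlgebraicClosure ℚ
local notation "Γ" => (AlgebraicClosure ℚ ≃ₐ[ℚ] AlgebraicClosure ℚ)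

variable {p : ℕ} [Fact p.Prime]

/-- A 1-cocycle on a finite group of order prime to `p`, with values killed by `p`, is a
coboundary. -/
theorem exists_d0_of_coprime {H M : Type*} [Group H] [Fintype H] [AddCommGroup M]
    (act : H → M →+ M) (hpM : ∀ m : M, p • m = 0) (hH : Nat.Coprime (Fintype.card H) p)
    (c : H → M) (hc : ∀ g h : H, c (g * h) = act g (c h) + c g) :
    ∃ y : M, ∀ g, act g y - y = c g := by
  obtain ⟨e, -, he⟩ := Nat.exists_mul_mod_eq_one_of_coprime hH (Fact.out : p.Prime).one_lt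
  have he' : ∀ m : M, (Fintype.card H * e) • m = m := fun m => by
    conv_lhs => rw [← Nat.mod_add_div (Fintype.card H * e) p, he, add_smul, one_smul, mul_smul]
    rw [hpM, add_zero]
  refine ⟨-(e • ∑ j : H, c j), fun g => ?_⟩
  have h1 : ∑ j : H, c j = act g (∑ j : H, c j) + Fintype.card H • c g := by
    conv_lhs => rw [← Fintype.sum_equiv (Equiv.mulLeft g) (fun j => c (g * j)) c fun _ => rfl]
    rw [Finset.sum_congr rfl fun j _ => hc g j, Finset.sum_add_distrib, Finset.sum_const,
      Finset.card_univ, map_sum]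
  have h2 : Fintype.card H • c g = ∑ j : H, c j - act g (∑ j : H, c j) :=
    eq_sub_of_add_eq' h1.symm
  rw [map_neg, map_nsmul, neg_sub_neg, ← nsmul_sub, ← h2, ← mul_smul, mul_comm, he']

variable (S : Finset Nat.Primes) (A : Rep (ZMod p) Γ)

/-- Vanishing of a localised class. -/
theorem locRes_H1π_eq_zero_iff (v : extArithIndex S) (c : cocycles₁ A) :
    (locRes (extArithLoc S) A v).hom ((H1π A).hom c) = 0 ↔
      ∃ n : A, ∀ g, A.ρ (extArithLoc S v g) n - n = c (extArithLoc S v g) := by
  rw [show (locRes (extArithLoc S) A v).hom ((H1π A).hom c) = _ from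
    H1π_comp_map_apply (extArithLoc S v) (𝟙 (Rep.res (extArithLoc S v) A)) c, H1π_eq_zero_iff]
  refine exists_congr fun n => ?_
  rw [funext_iff]
  rfl

variable {S} {A}

/-- A global 1-cocycle is trivial at the archimedean place, for odd `p`. -/
theorem exists_archimedean (hp2 : p ≠ 2) (hpA : ∀ a : A, p • a = 0) (c : cocycles₁ A) :
    ∃ n : A, ∀ g : archimedeanDecomposition, A.ρ (g : Γ) n - n = c (g : Γ) := by
  have hdvd : Nat.card archimedeanDecomposition ∣ 2 := by
    rw [archimedeanDecomposition, Nat.card_zpowers]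
    exact orderOf_dvd_of_pow_eq_one complexConjugation_sq
  have : Finite archimedeanDecomposition := Nat.finite_of_card_ne_zero fun h => by
    rw [h] at hdvd
    simp at hdvd
  have := Fintype.ofFinite archimedeanDecomposition
  exact exists_d0_of_coprime (fun g : archimedeanDecomposition => (A.ρ (g : Γ)).toAddMonoidHom) hpA
    (by
      rw [← Nat.card_eq_fintype_card]
      exact Nat.Coprime.of_dvd_left hdvd
        ((Nat.coprime_primes Nat.prime_two Fact.out).mpr (Ne.symm hp2)))
    (fun g => c (g : Γ)) fun g h => (mem_cocycles₁_iff (c : Γ → A)).mp c.2 (g : Γ) (h : Γ)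

variable (S) (A)

/-- Locally trivial classes of a level modulo coboundaries. -/
abbrev Sha1Level (K : IntermediateField ℚ Qb) [Normal ℚ K] [FiniteDimensional ℚ K]
    [DistribMulAction (LevelGroup K) A] : Type :=
  ↥(locCocycles p (N := A) fun q : S => decGroup K (q : Nat.Primes)) ⧸
    (LinearMap.range (d0L (LevelGroup K) A p)).comap
      (locCocycles p (N := A) fun q : S => decGroup K (q : Nat.Primes)).subtype

variable {S} {A}

/-- Inflation from a level is injective on locally trivial classes; its image consists of the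
classes of `sha₁` with a cocycle factoring through the level. -/
theorem exists_sha1_inflation (hp2 : p ≠ 2) (hpA : ∀ a : A, p • a = 0)
    (K : IntermediateField ℚ Qb) [Normal ℚ K] [FiniteDimensional ℚ K]
    (hK : K.IsUnramifiedOutside S) [DistribMulAction (LevelGroup K) A]
    (hlev : ∀ (σ : Γ) (a : A), toLevel K σ • a = A.ρ σ a) :
    ∃ Φ : Sha1Level S A K → sha₁ S A, Function.Injective Φ ∧
      ∀ x : sha₁ S A, (∃ c : cocycles₁ A, (H1π A).hom c = x ∧
        ∀ g s, s ∈ K.fixingSubgroup → c (g * s) = c g) → x ∈ Set.range Φ := by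
  classical
  let L := locCocycles p (N := A) fun q : S => decGroup K (q : Nat.Primes)
  -- inflation of cochains
  have hco : ∀ f : L, (fun σ => (f : LevelGroup K → A) (toLevel K σ)) ∈ cocycles₁ A := by
    intro f
    refine (mem_cocycles₁_iff _).mpr fun g h => ?_
    have h1 := congrFun ((mem_locCocycles p _).mp f.2).1 (toLevel K g, toLevel K h)
    simp only [d1, Pi.zero_apply, hlev] at h1
    rw [map_mul, ← sub_eq_zero, ← neg_eq_zero]
    rw [← h1]
    abel
  let inf : L → cocycles₁ A := fun f => ⟨_, hco f⟩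
  have hinf : ∀ (f : L) (σ : Γ), inf f σ = (f : LevelGroup K → A) (toLevel K σ) := fun _ _ => rfl
  have hsha : ∀ f : L, (H1π A).hom (inf f) ∈ sha₁ S A := by
    intro f
    refine ⟨(mem_continuousH1S_iff S A _).mpr ⟨inf f, ⟨K, hK, fun g s hs => ?_⟩, rfl⟩,
      LinearMap.mem_ker.mpr (funext fun v => ?_)⟩
    · rw [hinf, hinf, map_mul,
        show toLevel K s = 1 from (QuotientGroup.eq_one_iff s).mpr hs, mul_one]
    · rw [locTotal_apply, Pi.zero_apply, locRes_H1π_eq_zero_iff]
      rcases v with u | q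
      · exact exists_archimedean hp2 hpA (inf f)
      · obtain ⟨n, hn⟩ := ((mem_locCocycles p _).mp f.2).2 q
        refine ⟨n, fun τ => ?_⟩
        have h1 := hn ⟨toLevel K (locHom (q : Nat.Primes) τ), τ, rfl⟩
        rw [← hlev]
        exact h1.symm
  -- the map on the quotient
  have hwd : ∀ f f' : L, (f - f' : L) ∈ (LinearMap.range (d0L (LevelGroup K) A p)).comap L.subtype ↔
      (H1π A).hom (inf f) = (H1π A).hom (inf f') := by
    intro f f'
    rw [← sub_eq_zero (a := (H1π A).hom (inf f)), ← map_sub, H1π_eq_zero_iff, Submodule.mem_comap]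
    constructor
    · rintro ⟨n, hn⟩
      refine ⟨n, funext fun σ => ?_⟩
      have h1 := congrFun hn (toLevel K σ)
      rw [d0L_apply, d0, hlev] at h1
      exact h1
    · rintro ⟨n, hn⟩
      refine ⟨n, funext fun x => ?_⟩
      obtain ⟨σ, rfl⟩ := QuotientGroup.mk'_surjective K.fixingSubgroup x
      rw [d0L_apply, d0, hlev]
      exact congrFun hn σ
  refine ⟨Quotient.lift (fun f => (⟨(H1π A).hom (inf f), hsha f⟩ : sha₁ S A))
    (fun f f' h => Subtype.ext ((hwd f f').mp ((Submodule.quotientRel_def _).mp h))), ?_, ?_⟩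
  · rintro ⟨f⟩ ⟨f'⟩ h
    exact (Submodule.Quotient.eq _).mpr ((hwd f f').mpr (congrArg Subtype.val h))
  rintro ⟨x, hx⟩ ⟨c, hcx, hcK⟩
  change (H1π A).hom c = x at hcx
  -- descend the cocycle
  let f₀ : LevelGroup K → A := fun y => c (Quotient.out y)
  have hf₀ : ∀ σ, f₀ (toLevel K σ) = c σ := fun σ => by
    obtain ⟨s, hs⟩ := QuotientGroup.mk_out_eq_mul K.fixingSubgroup σ
    show c (Quotient.out (QuotientGroup.mk σ : LevelGroup K)) = c σ
    rw [hs, hcK σ _ s.2]
  have hf : f₀ ∈ L := by
    refine (mem_locCocycles p _).mpr ⟨funext fun gh => ?_, fun q => ?_⟩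
    · obtain ⟨g, hg⟩ := QuotientGroup.mk'_surjective K.fixingSubgroup gh.1
      obtain ⟨h, hh⟩ := QuotientGroup.mk'_surjective K.fixingSubgroup gh.2
      have h1 := (mem_cocycles₁_iff (c : Γ → A)).mp c.2 g h
      rw [d1, Pi.zero_apply, ← hg, ← hh, ← map_mul, hf₀, hf₀, hf₀, hlev, h1]
      abel
    · have h0 : (locTotal (extArithLoc S) A) x (Sum.inr q) = 0 :=
        congrFun (LinearMap.mem_ker.mp hx.2) (Sum.inr q)
      obtain ⟨n, hn⟩ := (locRes_H1π_eq_zero_iff S A (Sum.inr q) c).mp (by rw [hcx]; exact h0)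
      refine ⟨n, ?_⟩
      rintro ⟨y, τ, rfl⟩
      show f₀ (toLevel K (locHom (q : Nat.Primes) τ)) = toLevel K (locHom (q : Nat.Primes) τ) • n - n
      rw [hf₀, hlev]
      exact (hn τ).symm
  refine ⟨Submodule.Quotient.mk ⟨f₀, hf⟩, Subtype.ext ?_⟩
  show (H1π A).hom (inf ⟨f₀, hf⟩) = x
  rw [← hcx]
  exact congrArg _ (Subtype.ext (funext fun σ => hf₀ σ))

/-- Every class of `sha₁` is inflated from all sufficiently big levels. -/
theorem exists_level_of_mem_sha1 (x : sha₁ S A) :
    ∃ F : IntermediateField ℚ Qb, F.IsUnramifiedOutside S ∧ ∃ c : cocycles₁ A,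
      (H1π A).hom c = x ∧ ∀ g s, s ∈ F.fixingSubgroup → c (g * s) = c g := by
  obtain ⟨c, ⟨F, hF, hc⟩, hcx⟩ := (mem_continuousH1S_iff S A _).mp x.2.1
  exact ⟨F, hF, c, hcx, hc⟩

/-- If all big levels have `m` locally trivial classes, so does `sha₁`. -/
theorem natCard_sha1_eq {m : ℕ} (hp2 : p ≠ 2) (hpA : ∀ a : A, p • a = 0)
    (K₀ : IntermediateField ℚ Qb) (hK₀ : K₀.IsUnramifiedOutside S)
    (h : ∀ F : IntermediateField ℚ Qb, F.IsUnramifiedOutside S →
      ∃ (K : IntermediateField ℚ Qb) (_ : Normal ℚ K) (_ : FiniteDimensional ℚ K)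
        (_ : DistribMulAction (LevelGroup K) A), (K₀ ≤ K ∧ F ≤ K) ∧ K.IsUnramifiedOutside S ∧
        (∀ (σ : Γ) (a : A), toLevel K σ • a = A.ρ σ a) ∧
        Finite (Sha1Level S A K) ∧ Nat.card (Sha1Level S A K) = m) :
    Finite (sha₁ S A) ∧ Nat.card (sha₁ S A) = m := by
  classical
  -- a finite set of classes lies in the image of one level
  have key : ∀ T : Finset (sha₁ S A), T.card ≤ m := by
    intro T
    choose F hF c hc hcF using fun x : sha₁ S A => exists_level_of_mem_sha1 x
    have hsup : ∀ T : Finset (sha₁ S A), (T.sup F ⊔ K₀).IsUnramifiedOutside S := by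
      intro T
      induction T using Finset.induction_on with
      | empty => simpa using hK₀
      | insert a s _ ih =>
        rw [Finset.sup_insert, sup_assoc]
        exact (hF a).sup ih
    obtain ⟨K, _, _, _, ⟨-, hFK⟩, hK, hlev, hfin, hcard⟩ := h _ (hsup T)
    obtain ⟨Φ, -, hΦ⟩ := exists_sha1_inflation hp2 hpA K hK hlev
    have hTK : ∀ x ∈ T, x ∈ Set.range Φ := fun x hx =>
      hΦ x ⟨c x, hc x, fun g s hs => hcF x g s
        (fixingSubgroup_antitone (((Finset.le_sup hx).trans le_sup_left).trans hFK) hs)⟩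
    rw [← hcard]
    choose pre hpre using fun x : T => hTK x x.2
    have hinj : Function.Injective pre := fun x y hxy => Subtype.ext (by
      rw [← hpre x, ← hpre y, hxy])
    simpa using Nat.card_le_card_of_injective pre hinj
  have hfin : Finite (sha₁ S A) := by
    by_contra hinf
    rw [not_finite_iff_infinite] at hinf
    obtain ⟨T, hT⟩ := Infinite.exists_subset_card_eq (sha₁ S A) (m + 1)
    have := key T
    omega
  refine ⟨hfin, le_antisymm ?_ ?_⟩
  · have := Fintype.ofFinite (sha₁ S A)
    rw [Nat.card_eq_fintype_card]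
    exact key Finset.univ
  · obtain ⟨K, _, _, _, -, hK, hlev, -, hcard⟩ := h K₀ hK₀
    obtain ⟨Φ, hΦ, -⟩ := exists_sha1_inflation hp2 hpA K hK hlev
    rw [← hcard]
    exact Nat.card_le_card_of_injective Φ hΦ

end Fermat.Agent.ClassField.S55
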