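import Fermat.Agent.ClassField.S55.Bridge.Diagram
import Fermat.Agent.ClassField.S55.Bridge.Dense

/-!
# S55 bridge: locally trivial classes in degree two

A smooth 2-cocycle with values in `M` dies in the cone of the diagram iff it is a coboundary of a
level constant cochain at every prime of `S`.
-/

set_option autoImplicit false

noncomputable section

open scoped Fermat.Agent.ClassField

namespace Fermat.Agent.ClassField.S55

open Idele IntermediateField

local notation "Qb" => AlgebraicClosure ℚ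
local notation "Γ" => (AlgebraicClosure ℚ ≃ₐ[ℚ] AlgebraicClosure ℚ)

/-- A 2-cochain is, at `q`, the coboundary of a level constant cochain. -/
def IsLocalCoboundary {M : Type*} [AddCommGroup M] [DistribMulAction Γ M] (q : Nat.Primes)
    (c : Γ × Γ → M) : Prop :=
  ∃ y : LocalGal q → M,
    (∃ F : IntermediateField ℚ Qb, FiniteDimensional ℚ F ∧
      ∀ g s, locHom q s ∈ F.fixingSubgroup → y (g * s) = y g) ∧
    ∀ g h, locHom q g • y h - y (g * h) + y g = c (locHom q g, locHom q h)

/-- The image of `E` in the local units at the base embedding. -/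
def evLoc {S : Finset Nat.Primes} (q : Nat.Primes) : EMod S →+ LUnits q where
  toFun e := Additive.ofMul (Units.map (emb0 q : Qb →* PadicAlgCl (q : ℕ))
    ((e.toMul : sUnits S) : Qbˣ))
  map_zero' := congrArg Additive.ofMul (map_one _)
  map_add' a b := congrArg Additive.ofMul (map_mul _ _ _)

theorem evLoc_injective {S : Finset Nat.Primes} (q : Nat.Primes) :
    Function.Injective (evLoc (S := S) q) := fun _ _ h =>
  Additive.toMul.injective (Subtype.ext (Units.map_injective (emb0 q).toRingHom.injective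
    (Additive.ofMul.injective h)))

theorem evLoc_smul {S : Finset Nat.Primes} (q : Nat.Primes) (τ : LocalGal q) (e : EMod S) :
    evLoc q (locHom q τ • e) = τ • evLoc q e :=
  Additive.toMul.injective (Units.ext (emb0_locHom q τ _))

theorem compAt_diag_eq {S : Finset Nat.Primes} {q : Nat.Primes} (hq : q ∈ S) (σ : Γ) (e : EMod S) :
    compAt q σ (diagA S e) = evLoc q (σ • e) :=
  Additive.toMul.injective (Units.ext (compAt_diag hq σ e))

theorem exists_nsmul_eq_lunits {q : Nat.Primes} {n : ℕ} (hn : n ≠ 0) (x : LUnits q) :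
    ∃ y : LUnits q, n • y = x := by
  obtain ⟨z, hz⟩ := IsAlgClosed.exists_pow_nat_eq (x.toMul : PadicAlgCl (q : ℕ))
    (Nat.pos_of_ne_zero hn)
  have hz0 : z ≠ 0 := fun h => x.toMul.ne_zero (by rw [← hz, h, zero_pow hn])
  exact ⟨Additive.ofMul (Units.mk0 z hz0), Additive.toMul.injective (Units.ext (by simpa using hz))⟩

/-- The `p`-torsion of the local units comes from `E`. -/
theorem exists_evLoc_eq {S : Finset Nat.Primes} {p : ℕ} [Fact p.Prime] (hp : (⟨p, Fact.out⟩ : Nat.Primes) ∈ S)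
    {q : Nat.Primes} {x : LUnits q} (hx : p • x = 0) : ∃ e : EMod S, evLoc q e = x := by
  have hp0 : p ≠ 0 := (Fact.out : p.Prime).ne_zero
  have : NeZero p := ⟨hp0⟩
  obtain ⟨ζ, hζ⟩ := HasEnoughRootsOfUnity.exists_primitiveRoot Qb p
  have hι := hζ.map_of_injective (f := emb0 q) (emb0 q).toRingHom.injective
  have hx' : (x.toMul : PadicAlgCl (q : ℕ)) ^ p = 1 := by
    have h1 := congrArg (fun z : LUnits q => (z.toMul : PadicAlgCl (q : ℕ))) hx
    simpa using h1
  obtain ⟨i, -, hi⟩ := hι.eq_pow_of_pow_eq_one hx'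
  have hz0 : ζ ≠ 0 := hζ.ne_zero hp0
  have hF := isUnramifiedOutside_adjoin (isUnramifiedOutside_bot S) hp0
    (fun q' h => by
      rwa [show q' = ⟨p, Fact.out⟩ from Subtype.ext
        ((Nat.prime_dvd_prime_iff_eq q'.2 Fact.out).mp h)])
    hz0 (by rw [hζ.pow_eq_one]; exact one_mem _) (fun q' hq' ι => by rw [hζ.pow_eq_one]; simp)
  have hmem : Units.mk0 ζ hz0 ∈ sUnits S := by
    refine ⟨isFixed_of_mem hF
      ((le_sup_right : ℚ⟮ζ⟯ ≤ ⊥ ⊔ ℚ⟮ζ⟯) (mem_adjoin_simple_self ℚ ζ)), fun q' _ ι => ?_⟩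
    have h1 : ‖ι ζ‖ ^ p = 1 := by rw [← norm_pow, ← map_pow, hζ.pow_eq_one, map_one, norm_one]
    exact (pow_eq_one_iff_of_nonneg (norm_nonneg _) hp0).mp h1
  refine ⟨i • Additive.ofMul ⟨_, hmem⟩, ?_⟩
  rw [map_nsmul]
  refine Additive.toMul.injective (Units.ext ?_)
  rw [← hi]
  simp [evLoc]

variable {S : Finset Nat.Primes} {p : ℕ} [Fact p.Prime] {M N P R Y : Type*} [AddCommGroup M]
    [DistribMulAction Γ M] [AddCommGroup N] [DistribMulAction Γ N] [AddCommGroup P]
    [DistribMulAction Γ P] [AddCommGroup R] [DistribMulAction Γ R] [MulAction Γ Y]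

/-- The action of the local Galois group on homomorphisms into the local units. -/
def lsmul {X : Type*} [AddCommGroup X] [DistribMulAction Γ X] (q : Nat.Primes) (τ : LocalGal q) :
    (X →+ LUnits q) →+ (X →+ LUnits q) :=
  AddMonoidHom.mk'
    (fun f => (DistribSMul.toAddMonoidHom (LUnits q) τ).comp
      (f.comp (DistribSMul.toAddMonoidHom X (locHom q τ)⁻¹)))
    fun f f' => AddMonoidHom.ext fun x => smul_add τ _ _

theorem lsmul_apply {X : Type*} [AddCommGroup X] [DistribMulAction Γ X] (q : Nat.Primes)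
    (τ : LocalGal q) (f : X →+ LUnits q) (x : X) :
    lsmul q τ f x = τ • f ((locHom q τ)⁻¹ • x) := rfl

theorem lsmul_sub {X : Type*} [AddCommGroup X] [DistribMulAction Γ X] (q : Nat.Primes)
    (τ : LocalGal q) (f f' : X →+ LUnits q) :
    lsmul q τ (f - f') = lsmul q τ f - lsmul q τ f' := map_sub (lsmul q τ) f f'

theorem lsmul_add {X : Type*} [AddCommGroup X] [DistribMulAction Γ X] (q : Nat.Primes)
    (τ : LocalGal q) (f f' : X →+ LUnits q) :
    lsmul q τ (f + f') = lsmul q τ f + lsmul q τ f' := map_add (lsmul q τ) f f'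

theorem lsmul_lsmul {X : Type*} [AddCommGroup X] [DistribMulAction Γ X] (q : Nat.Primes)
    (τ τ' : LocalGal q) (f : X →+ LUnits q) : lsmul q τ (lsmul q τ' f) = lsmul q (τ * τ') f :=
  AddMonoidHom.ext fun x => by
    simp only [lsmul_apply, map_mul, mul_inv_rev, mul_smul]

namespace Presentation

variable (D : Presentation S p M N P R Y)

/-- `M → Hom(P, local units)`. -/
def loc (q : Nat.Primes) : M →+ (P →+ LUnits q) :=
  AddMonoidHom.mk' (fun m => (evLoc q).comp (D.iMap m).hom) fun m m' => AddMonoidHom.ext fun x => by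
    show evLoc q (D.iMap (m + m') x) = evLoc q (D.iMap m x) + evLoc q (D.iMap m' x)
    rw [← map_add (evLoc q), map_add D.iMap]
    rfl

omit [Fact p.Prime] in
theorem loc_apply (q : Nat.Primes) (m : M) (x : P) : D.loc q m x = evLoc q (D.iMap m x) := rfl

omit [Fact p.Prime] in
theorem loc_injective (q : Nat.Primes) : Function.Injective (D.loc q) := fun m m' h =>
  D.iMap_injective (CHom.ext' fun x => evLoc_injective q (DFunLike.congr_fun h x))

omit [Fact p.Prime] in
theorem loc_incl (q : Nat.Primes) (m : M) (r : R) : D.loc q m (D.incl r) = 0 := by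
  rw [loc_apply, iMap_apply, (D.exact _).mpr ⟨r, rfl⟩]
  show evLoc q ((D.mu m).hom 0) = 0
  rw [map_zero, map_zero]

omit [Fact p.Prime] in
theorem loc_smul (q : Nat.Primes) (τ : LocalGal q) (m : M) :
    D.loc q (locHom q τ • m) = lsmul q τ (D.loc q m) := AddMonoidHom.ext fun x => by
  rw [lsmul_apply, loc_apply, loc_apply, map_smul]
  exact evLoc_smul q τ _

omit [Fact p.Prime] in
theorem compAt_iMap {q : Nat.Primes} (hq : q ∈ S) (σ : Γ) (m : M) (x : P) :
    compAt q σ (diagA S (D.iMap m x)) = D.loc q (σ • m) (σ • x) := by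
  rw [compAt_diag_eq hq, loc_apply, map_smul D.iMap σ m, CHom.smul_apply, inv_smul_smul]

theorem exists_loc_eq {q : Nat.Primes} {f : P →+ LUnits q} (hf : ∀ r, f (D.incl r) = 0) :
    ∃ m, D.loc q m = f := by
  have hp : (⟨p, Fact.out⟩ : Nat.Primes) ∈ S := D.dvd_mem ⟨p, Fact.out⟩ dvd_rfl
  have hk : ∀ x, ∃ e : EMod S, evLoc q e = f x := fun x => by
    obtain ⟨r, hr⟩ := D.nsmul_mem_range x
    exact exists_evLoc_eq hp (by rw [← map_nsmul, ← hr, hf])
  choose e he using hk
  obtain ⟨m, hm⟩ := D.exists_iMap_eq (f := ⟨AddMonoidHom.mk' e fun a b =>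
    evLoc_injective q (by rw [map_add, he, he, he, map_add])⟩) fun r => by
      show e (D.incl r) = 0
      exact evLoc_injective q (by rw [he, hf, map_zero])
  exact ⟨m, AddMonoidHom.ext fun x => by rw [loc_apply, hm]; exact he x⟩

omit [Fact p.Prime] in
theorem lsmul_of_fixed [Finite Y] {q : Nat.Primes} (f : P →+ LUnits q) :
    ∃ F : IntermediateField ℚ Qb, FiniteDimensional ℚ F ∧ F.fixingSubgroup ≤ D.U₀ ∧
      ∀ s : LocalGal q, locHom q s ∈ F.fixingSubgroup → lsmul q s f = f := by
  classical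
  obtain ⟨F₀, hF₀, -, hFU⟩ := D.mem_levels
  have key : ∀ T : Finset Y, ∃ F : IntermediateField ℚ Qb, FiniteDimensional ℚ F ∧
      F.fixingSubgroup ≤ D.U₀ ∧ ∀ y ∈ T, ∀ s : LocalGal q, locHom q s ∈ F.fixingSubgroup →
        s • f (D.basis y) = f (D.basis y) := by
    intro T
    induction T using Finset.induction_on with
    | empty => exact ⟨F₀, hF₀.1, hFU.le, by simp⟩
    | @insert y T _ ih =>
      obtain ⟨F, hF, hFle, ihF⟩ := ih
      obtain ⟨F', hF', h'⟩ := exists_level_fix_units q (f (D.basis y))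
      refine ⟨F ⊔ F', IntermediateField.finiteDimensional_sup F F',
        (IntermediateField.fixingSubgroup_antitone le_sup_left).trans hFle, fun z hz s hs => ?_⟩
      rcases Finset.mem_insert.1 hz with rfl | hz
      · exact h' s (IntermediateField.fixingSubgroup_antitone le_sup_right hs)
      · exact ihF z hz s (IntermediateField.fixingSubgroup_antitone le_sup_left hs)
  obtain ⟨F, hF, hFle, hfix⟩ := key (Set.finite_univ (α := Y)).toFinset
  refine ⟨F, hF, hFle, fun s hs => AddMonoidHom.toIntLinearMap_injective (D.basis.ext fun y => ?_)⟩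
  show lsmul q s f (D.basis y) = f (D.basis y)
  rw [lsmul_apply, D.fixed_P _ (hFle (inv_mem hs))]
  exact hfix y (by simp) s hs

variable [Finite Y] [Module.Free ℤ R] [Module.Finite ℤ R]

/-- A class dying in the cone is locally trivial. -/
theorem isLocalCoboundary_of_mem_locTriv (hC : CTorsion S p) {c : Γ × Γ → M}
    (hc : c ∈ (D.ptDiagram hC).locTriv) {q : Nat.Primes} (hq : q ∈ S) : IsLocalCoboundary q c := by
  obtain ⟨-, b, t, hb, h1, h2⟩ := hc
  obtain ⟨_, ⟨F₁, hF₁, hn₁, rfl⟩, hbs⟩ := hb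
  let bl : LocalGal q → (P →+ LUnits q) := fun τ => (compAt q 1).comp (b (locHom q τ)).hom
  let tl : R →+ LUnits q := (compAt q 1).comp t.hom
  obtain ⟨te, hte⟩ := D.exists_extension
    (exists_nsmul_eq_lunits (q := q) (Fact.out : p.Prime).ne_zero) tl
  have hcomp : ∀ (τ : LocalGal q) (j : JMod S),
      compAt q 1 (locHom q τ • j) = τ • compAt q 1 j := fun τ j => by
    rw [compAt_smul, one_mul, ← mul_one (locHom q τ), compAt_locHom_mul]
  let bl' : LocalGal q → (P →+ LUnits q) := fun τ => bl τ - (lsmul q τ te - te)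
  have hbl'R : ∀ τ r, bl' τ (D.incl r) = 0 := by
    intro τ r
    have h3 := congrArg (fun w : CHom R (JMod S) => w r) (congrFun h2 (locHom q τ))
    simp only [Function.comp_apply, d0, CHom.sub_apply, CHom.smul_apply] at h3
    change b (locHom q τ) (D.incl r) = _ at h3
    show compAt q 1 (b (locHom q τ) (D.incl r)) -
      (lsmul q τ te (D.incl r) - te (D.incl r)) = 0
    rw [h3, map_sub, hcomp, lsmul_apply, ← map_smul D.incl, hte, hte]
    exact sub_self _
  choose y hy using fun τ => D.exists_loc_eq (hbl'R τ)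
  obtain ⟨F₂, hF₂, hF₂U, hte'⟩ := D.lsmul_of_fixed te
  have := hF₁.1
  refine ⟨y, ⟨F₁ ⊔ F₂, IntermediateField.finiteDimensional_sup F₁ F₂, fun g s hs => ?_⟩,
    fun g h => ?_⟩
  · refine D.loc_injective q ?_
    rw [hy, hy]
    show bl (g * s) - (lsmul q (g * s) te - te) = bl g - (lsmul q g te - te)
    rw [← lsmul_lsmul q g s, hte' s (IntermediateField.fixingSubgroup_antitone le_sup_right hs)]
    congr 1
    show (compAt q 1).comp (b (locHom q (g * s))).hom = _
    rw [map_mul, hbs _ _ (IntermediateField.fixingSubgroup_antitone le_sup_left hs)]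
  · refine D.loc_injective q ?_
    rw [map_add, map_sub, D.loc_smul, hy, hy, hy]
    refine AddMonoidHom.ext fun x => ?_
    have h3 := congrArg (fun w : CHom P (JMod S) => compAt q 1 (w x))
      (congrFun h1 (locHom q g, locHom q h))
    simp only [Function.comp_apply, d1, CHom.add_apply, CHom.sub_apply, CHom.smul_apply, map_add,
      map_sub, hcomp] at h3
    have h4 : compAt q 1 ((((D.ptDiagram hC).aP ((D.ptDiagram hC).i
        (c (locHom q g, locHom q h)))) : CHom P (JMod S)) x) =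
        D.loc q (c (locHom q g, locHom q h)) x := by
      refine (D.compAt_iMap hq 1 _ x).trans ?_
      rw [one_smul, one_smul]
    rw [h4] at h3
    rw [← h3]
    simp only [AddMonoidHom.add_apply, AddMonoidHom.sub_apply, bl', bl, lsmul_apply,
      AddMonoidHom.comp_apply, map_mul, smul_sub, mul_inv_rev, mul_smul, map_sub]
    abel

omit [Module.Free ℤ R] [Module.Finite ℤ R] in
/-- The inflation step: a locally trivial cocycle is, at `q`, the coboundary of a cochain with
values in the local units which is right invariant under the preimage `V` of the level, and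
fixed by it. -/
theorem exists_normalised {U : Subgroup Γ} (hU : U ∈ (levels S).carrier) (hUU₀ : U ≤ D.U₀)
    {c : Γ × Γ → M} (hcU : ∀ g g' s s' : Γ, s ∈ U → s' ∈ U → c (g * s, g' * s') = c (g, g'))
    (hcoc : ∀ g h j : Γ, g • c (h, j) - c (g * h, j) + c (g, h * j) - c (g, h) = 0)
    {q : Nat.Primes} (hloc : IsLocalCoboundary q c) :
    ∃ (b : LocalGal q → (P →+ LUnits q)) (T : R →+ LUnits q),
      (∀ g h, lsmul q g (b h) - b (g * h) + b g = D.loc q (c (locHom q g, locHom q h))) ∧
      (∀ g v, locHom q v ∈ U → b (g * v) = b g) ∧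
      (∀ g r, b g (D.incl r) = g • T ((locHom q g)⁻¹ • r) - T r) := by
  classical
  obtain ⟨y, ⟨F', hF', hy⟩, hdy⟩ := hloc
  have hnorm := (levels S).normal U hU
  obtain ⟨F, hF, hn, hFU⟩ := id hU
  have := hF.1
  -- the value at a pair from the level
  have hc1r : ∀ g u : Γ, u ∈ U → c (g, u) = c (g, 1) := fun g u hu => by
    simpa using hcU g 1 1 u U.one_mem hu
  have hc1l : ∀ g u : Γ, u ∈ U → c (u, g) = c (1, g) := fun g u hu => by
    simpa using hcU 1 g u 1 hu U.one_mem
  have hfix11 : ∀ u ∈ U, u • c (1, 1) = c (1, 1) := fun u hu => by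
    have h := hcoc u 1 1
    rw [mul_one, mul_one, hc1l 1 u hu, sub_add_cancel, sub_eq_zero] at h
    exact h
  let V : Subgroup (LocalGal q) := U.comap (locHom q)
  have hVP : ∀ v ∈ V, ∀ x : P, (locHom q v)⁻¹ • x = x := fun v hv x =>
    D.fixed_P _ (hUU₀ (U.inv_mem hv)) x
  -- the cocycle on the level
  let iy : LocalGal q → (P →+ LUnits q) := fun τ => D.loc q (y τ)
  let z : V → (P →+ LUnits q) := fun v => iy v - D.loc q (c (1, 1))
  have hz : ∀ v w : V, ∀ x, z (v * w) x = (v : LocalGal q) • z w x + z v x := by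
    intro v w x
    have h := congrArg (fun m => D.loc q m x) (hdy v w)
    simp only [map_add, map_sub, D.loc_smul, AddMonoidHom.add_apply, AddMonoidHom.sub_apply,
      lsmul_apply, hVP _ v.2] at h
    rw [hc1r _ _ w.2, hc1l _ _ v.2] at h
    have h11 : (v : LocalGal q) • D.loc q (c (1, 1)) x = D.loc q (c (1, 1)) x := by
      have h5 := congrArg (fun m => D.loc q m x) (hfix11 _ v.2)
      simp only [D.loc_smul, lsmul_apply, hVP _ v.2] at h5
      exact h5
    simp only [z, iy, AddMonoidHom.sub_apply, Subgroup.coe_mul, smul_sub, h11]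
    rw [← h]
    abel
  obtain ⟨N₀, hN₀le, hN₀fin, hN₀nor⟩ :
      ∃ N₀ : IntermediateField ℚ Qb, F ⊔ F' ≤ N₀ ∧ FiniteDimensional ℚ N₀ ∧ Normal ℚ N₀ := by
    have : FiniteDimensional ℚ (F ⊔ F' : IntermediateField ℚ Qb) :=
      IntermediateField.finiteDimensional_sup F F'
    exact ⟨IntermediateField.normalClosure ℚ (F ⊔ F' : IntermediateField ℚ Qb) Qb,
      IntermediateField.le_normalClosure _, normalClosure.is_finiteDimensional ℚ _ Qb,
      normalClosure.normal ℚ _ Qb⟩
  choose x₀ hx₀ using fun i : Y => exists_d0_local q V.subtype N₀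
    (fun v => z v (D.basis i)) (fun v w => hz v w _)
    (fun v w hw => by
      simp only [z, iy, AddMonoidHom.sub_apply, Subgroup.coe_mul]
      rw [hy (v : LocalGal q) (w : LocalGal q)
        (IntermediateField.fixingSubgroup_antitone (le_sup_right.trans hN₀le) hw)])
  let x : P →+ LUnits q := (D.basis.constr ℤ x₀).toAddMonoidHom
  have hxv : ∀ v ∈ V, lsmul q v x - x = iy v - D.loc q (c (1, 1)) := by
    intro v hv
    refine AddMonoidHom.toIntLinearMap_injective (D.basis.ext fun i => ?_)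
    show lsmul q v x (D.basis i) - x (D.basis i) = z ⟨v, hv⟩ (D.basis i)
    rw [lsmul_apply, hVP v hv]
    simp only [x, LinearMap.toAddMonoidHom_coe, Module.Basis.constr_basis]
    exact hx₀ i ⟨v, hv⟩
  let b : LocalGal q → (P →+ LUnits q) := fun τ => iy τ - (lsmul q τ x - x)
  have hdb : ∀ g h, lsmul q g (b h) - b (g * h) + b g =
      D.loc q (c (locHom q g, locHom q h)) := by
    intro g h
    rw [← hdy g h, map_add, map_sub, D.loc_smul]
    simp only [b, iy, lsmul_sub, lsmul_lsmul]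
    abel
  have hbV : ∀ v ∈ V, b v = D.loc q (c (1, 1)) := fun v hv => by
    simp only [b]
    rw [hxv v hv]
    abel
  refine ⟨b, -(x.comp (D.incl : R →+ P)), hdb, fun g v hv => ?_, fun g r => ?_⟩
  · have h1 := hdb g v
    have h2 := hdb g 1
    rw [hbV v hv, hc1r _ _ hv] at h1
    rw [hbV 1 V.one_mem, mul_one, _root_.map_one, ← h1] at h2
    exact (sub_right_inj.mp (add_right_cancel h2)).symm
  · simp only [b, iy, AddMonoidHom.sub_apply, lsmul_apply, AddMonoidHom.neg_apply,
      AddMonoidHom.comp_apply, D.loc_incl, smul_neg]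
    rw [← map_smul D.incl]
    show (0 : LUnits q) - (g • x (D.incl ((locHom q g)⁻¹ • r)) - x (D.incl r)) =
      -(g • x (D.incl ((locHom q g)⁻¹ • r))) - -(x (D.incl r))
    abel

/-- A locally trivial cocycle dies in the cone. -/
theorem mem_locTriv_of_isLocalCoboundary (hC : CTorsion S p) {c : Γ × Γ → M}
    (hsm : (levels S).Smooth₂ c)
    (hcoc : ∀ g h j : Γ, g • c (h, j) - c (g * h, j) + c (g, h * j) - c (g, h) = 0)
    (hloc : ∀ q ∈ S, IsLocalCoboundary q c) : c ∈ (D.ptDiagram hC).locTriv := by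
  classical
  obtain ⟨U', hU', hcU'⟩ := hsm
  obtain ⟨U, hU, hUU', hUU₀⟩ := (levels S).directed U' hU' D.U₀ D.mem_levels
  have hcU : ∀ g g' s s' : Γ, s ∈ U → s' ∈ U → c (g * s, g' * s') = c (g, g') :=
    fun g g' s s' hs hs' => hcU' g g' s s' (hUU' hs) (hUU' hs')
  have hnorm := (levels S).normal U hU
  have hc_r : ∀ g g' s : Γ, s ∈ U → c (g, g' * s) = c (g, g') := fun g g' s hs => by
    simpa using hcU g g' 1 s U.one_mem hs
  have hc_l : ∀ g g' s : Γ, s ∈ U → c (g * s, g') = c (g, g') := fun g g' s hs => by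
    simpa using hcU g g' s 1 hs U.one_mem
  have hconj : ∀ {u : Γ} (g : Γ), u ∈ U → g⁻¹ * u * g ∈ U := fun g hu => by
    simpa using hnorm.conj_mem _ hu g⁻¹
  -- local data at every prime
  have hdata : ∀ q : Nat.Primes, ∃ (b : LocalGal q → (P →+ LUnits q)) (T : R →+ LUnits q),
      q ∈ S → (∀ g h, lsmul q g (b h) - b (g * h) + b g =
        D.loc q (c (locHom q g, locHom q h))) ∧
      (∀ g v, locHom q v ∈ U → b (g * v) = b g) ∧
      (∀ g r, b g (D.incl r) = g • T ((locHom q g)⁻¹ • r) - T r) := fun q => by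
    by_cases hq : q ∈ S
    · obtain ⟨b, T, h⟩ := D.exists_normalised hU hUU₀ hcU hcoc (hloc q hq)
      exact ⟨b, T, fun _ => h⟩
    · exact ⟨0, 0, fun h => absurd h hq⟩
  choose b T hbT using hdata
  -- representatives of the double cosets
  let img : ∀ q : Nat.Primes, Subgroup Γ := fun q => (locHom q).range
  let rep : ∀ q : Nat.Primes, Γ → Γ := fun q σ =>
    Quotient.out (s := DoubleCoset.setoid (img q : Set Γ) (U : Set Γ)) (Quotient.mk _ σ)
  have hrep : ∀ q σ, ∃ (τ : LocalGal q) (u : U), σ = locHom q τ * rep q σ * u := by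
    intro q σ
    have h1 : DoubleCoset.setoid (img q : Set Γ) (U : Set Γ) (rep q σ) σ :=
      Quotient.mk_out (s := DoubleCoset.setoid (img q : Set Γ) (U : Set Γ)) σ
    obtain ⟨a, ⟨τ, rfl⟩, u, hu, hau⟩ := DoubleCoset.rel_iff.mp h1
    exact ⟨τ, ⟨u, hu⟩, hau⟩
  choose t η hdec using hrep
  have hreps : ∀ q (τ : LocalGal q) (σ : Γ) (u : U), rep q (locHom q τ * σ * u) = rep q σ :=
    fun q τ σ u => congrArg Quotient.out (Quotient.sound
      (s := DoubleCoset.setoid (img q : Set Γ) (U : Set Γ))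
      (DoubleCoset.rel_iff.mpr ⟨(locHom q τ)⁻¹, (img q).inv_mem ⟨τ, rfl⟩, (u : Γ)⁻¹,
        U.inv_mem u.2, by group⟩))
  -- the primitive `u`
  let w : ∀ q : Nat.Primes, Γ → (P →+ LUnits q) := fun q σ =>
    b q (t q σ) - D.loc q (c (locHom q (t q σ), rep q σ))
  have hwind : ∀ q ∈ S, ∀ (τ : LocalGal q) (σ : Γ) (u : U), σ = locHom q τ * rep q σ * u →
      b q τ - D.loc q (c (locHom q τ, rep q σ)) = w q σ := by
    intro q hq τ σ u he
    let s := rep q σ
    have he' : locHom q τ * s * (u : Γ) = locHom q (t q σ) * s * (η q σ : Γ) :=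
      he.symm.trans (hdec q σ)
    have hmem : locHom q (τ⁻¹ * t q σ) ∈ U := by
      have h1 : locHom q (τ⁻¹ * t q σ) = s * ((u : Γ) * (η q σ : Γ)⁻¹) * s⁻¹ := by
        rw [map_mul, map_inv]
        calc (locHom q τ)⁻¹ * locHom q (t q σ)
            = (locHom q τ)⁻¹ * (locHom q (t q σ) * s * (η q σ : Γ)) * (η q σ : Γ)⁻¹ * s⁻¹ := by
              group
          _ = (locHom q τ)⁻¹ * (locHom q τ * s * (u : Γ)) * (η q σ : Γ)⁻¹ * s⁻¹ := by rw [he']
          _ = _ := by group
      rw [h1]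
      exact hnorm.conj_mem _ (U.mul_mem u.2 (U.inv_mem (η q σ).2)) s
    show b q τ - D.loc q (c (locHom q τ, s)) =
      b q (t q σ) - D.loc q (c (locHom q (t q σ), s))
    rw [show t q σ = τ * (τ⁻¹ * t q σ) from (mul_inv_cancel_left τ _).symm, (hbT q hq).2.1 _ _ hmem,
      map_mul (locHom q) τ, hc_l _ _ _ hmem]
  have hwU : ∀ q ∈ S, ∀ σ, ∀ u ∈ U, w q (σ * u) = w q σ := by
    intro q hq σ u hu
    have hr : rep q (σ * u) = rep q σ := by simpa using hreps q 1 σ ⟨u, hu⟩
    rw [← hwind q hq (t q σ) (σ * u) (η q σ * ⟨u, hu⟩)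
      (by rw [hr, Subgroup.coe_mul, ← mul_assoc, ← hdec q σ]), hr]
  have hwloc : ∀ q ∈ S, ∀ (τ : LocalGal q) (σ : Γ), w q (locHom q τ * σ) =
      lsmul q τ (w q σ) - D.loc q (c (locHom q τ, σ)) + b q τ := by
    intro q hq τ σ
    have hr : rep q (locHom q τ * σ) = rep q σ := by simpa using hreps q τ σ 1
    rw [← hwind q hq (τ * t q σ) (locHom q τ * σ) (η q σ)
      (by rw [hr, map_mul, mul_assoc (locHom q τ), mul_assoc (locHom q τ), ← hdec q σ]), hr]
    have hσc : c (locHom q τ, σ) = c (locHom q τ, locHom q (t q σ) * rep q σ) := by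
      conv_lhs => rw [hdec q σ, hc_r _ _ _ (η q σ).2]
    have h1 := (hbT q hq).1 τ (t q σ)
    have h2 := congrArg (D.loc q) (hcoc (locHom q τ) (locHom q (t q σ)) (rep q σ))
    simp only [map_sub, map_add, D.loc_smul, _root_.map_zero] at h2
    rw [hσc, map_mul, map_sub (lsmul q τ)]
    rw [← sub_eq_zero, ← h2, ← h1]
    abel
  let B : ∀ q : Nat.Primes, Γ → Γ → (P →+ LUnits q) := fun q g σ =>
    D.loc q (c (σ, g)) + w q (σ * g) - w q σ
  have hBloc : ∀ q ∈ S, ∀ (τ : LocalGal q) g σ, B q g (locHom q τ * σ) = lsmul q τ (B q g σ) := by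
    intro q hq τ g σ
    have h2 := congrArg (D.loc q) (hcoc (locHom q τ) σ g)
    simp only [map_sub, map_add, D.loc_smul, _root_.map_zero] at h2
    simp only [B, mul_assoc, hwloc q hq, lsmul_sub, lsmul_add]
    rw [eq_comm, ← sub_eq_zero, ← h2]
    abel
  have hBU : ∀ q ∈ S, ∀ g σ, ∀ u ∈ U, B q g (σ * u) = B q g σ := by
    intro q hq g σ u hu
    simp only [B, hc_l _ _ _ hu, hwU q hq σ u hu]
    rw [show σ * u * g = σ * g * (g⁻¹ * u * g) by group, hwU q hq _ _ (hconj g hu)]
  -- the cochain with values in `CHom P J`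
  have hex : ∀ g (x : P), ∃ j : JMod S,
      ∀ q ∈ S, ∀ σ, compAt q σ j = B q g σ (σ • x) := by
    intro g x
    obtain ⟨j, -, hj⟩ := exists_jmod (S := S) (fun q σ => B q g σ (σ • x))
      (fun q hq τ σ => by
        show B q g (locHom q τ * σ) ((locHom q τ * σ) • x) = τ • B q g σ (σ • x)
        rw [hBloc q hq, lsmul_apply, mul_smul, inv_smul_smul])
      U hU (fun q hq σ u hu => by
        show B q g (σ * u) ((σ * u) • x) = B q g σ (σ • x)
        rw [hBU q hq _ _ _ hu, mul_smul, D.fixed_P u (hUU₀ hu)])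
    exact ⟨j, hj⟩
  choose bb hbb using hex
  let bC : Γ → CHom P (JMod S) := fun g => ⟨AddMonoidHom.mk' (bb g) fun x x' =>
    jmod_ext fun q hq σ => by rw [map_add, hbb _ _ q hq, hbb _ _ q hq, hbb _ _ q hq, smul_add,
      map_add]⟩
  have hbC : ∀ g x, ∀ q ∈ S, ∀ σ, compAt q σ (bC g x) = B q g σ (σ • x) := hbb
  -- the element of `CHom R J`
  have htex : ∀ r : R, ∃ j : JMod S,
      ∀ q ∈ S, ∀ σ, compAt q σ j = w q σ (D.incl (σ • r)) + T q (σ • r) := by
    intro r
    obtain ⟨j, -, hj⟩ := exists_jmod (S := S) (fun q σ => w q σ (D.incl (σ • r)) + T q (σ • r))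
      (fun q hq τ σ => by
        show w q (locHom q τ * σ) (D.incl ((locHom q τ * σ) • r)) + T q ((locHom q τ * σ) • r) =
          τ • (w q σ (D.incl (σ • r)) + T q (σ • r))
        have h1 : (locHom q τ)⁻¹ • D.incl (locHom q τ • σ • r) = D.incl (σ • r) := by
          rw [map_smul, inv_smul_smul]
        simp only [hwloc q hq, AddMonoidHom.add_apply, AddMonoidHom.sub_apply, lsmul_apply,
          mul_smul, h1, D.loc_incl, (hbT q hq).2.2, inv_smul_smul, smul_add]
        abel)
      U hU (fun q hq σ u hu => by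
        show w q (σ * u) (D.incl ((σ * u) • r)) + T q ((σ * u) • r) =
          w q σ (D.incl (σ • r)) + T q (σ • r)
        rw [hwU q hq σ u hu, mul_smul, D.fixed_R (hUU₀ hu)])
    exact ⟨j, hj⟩
  choose tt htt using htex
  let tC : CHom R (JMod S) := ⟨AddMonoidHom.mk' tt fun r r' => jmod_ext fun q hq σ => by
    rw [map_add, htt _ q hq, htt _ q hq, htt _ q hq, smul_add, map_add, map_add, map_add]
    abel⟩
  have htC : ∀ r, ∀ q ∈ S, ∀ σ, compAt q σ (tC r) = w q σ (D.incl (σ • r)) + T q (σ • r) := htt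
  refine ⟨⟨U', hU', hcU'⟩, bC, tC, ⟨U, hU, fun g s hs => ?_⟩, ?_, ?_⟩
  · refine CHom.ext' fun x => jmod_ext fun q hq σ => ?_
    rw [hbC _ _ q hq, hbC _ _ q hq]
    simp only [B, hc_r _ _ _ hs, ← mul_assoc, hwU q hq _ _ hs]
  · funext ⟨g, h⟩
    refine CHom.ext' fun x => jmod_ext fun q hq σ => ?_
    show compAt q σ ((g • bC h - bC (g * h) + bC g : CHom P (JMod S)) x) =
      compAt q σ (diagA S (D.iMap (c (g, h)) x))
    rw [D.compAt_iMap hq, CHom.add_apply, CHom.sub_apply, CHom.smul_apply, map_add, map_sub,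
      compAt_smul, hbC _ _ q hq, hbC _ _ q hq, hbC _ _ q hq]
    have hx : (σ * g) • g⁻¹ • x = σ • x := by rw [mul_smul, smul_inv_smul]
    have h2 := congrArg (fun m => D.loc q m (σ • x)) (hcoc σ g h)
    simp only [map_sub, map_add, _root_.map_zero, AddMonoidHom.add_apply, AddMonoidHom.sub_apply,
      AddMonoidHom.zero_apply] at h2
    rw [hx]
    simp only [B, AddMonoidHom.add_apply, AddMonoidHom.sub_apply, mul_assoc]
    rw [eq_comm, ← sub_eq_zero, ← h2]
    abel
  · funext g
    refine CHom.ext' fun r => jmod_ext fun q hq σ => ?_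
    show compAt q σ (bC g (D.incl r)) = compAt q σ ((g • tC - tC : CHom R (JMod S)) r)
    rw [CHom.sub_apply, CHom.smul_apply, map_sub, compAt_smul, hbC _ _ q hq, htC _ q hq,
      htC _ q hq]
    have hx : (σ * g) • g⁻¹ • r = σ • r := by rw [mul_smul, smul_inv_smul]
    rw [hx, ← map_smul]
    simp only [B, AddMonoidHom.add_apply, AddMonoidHom.sub_apply, D.loc_incl]
    abel

end Presentation

end Fermat.Agent.ClassField.S55
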