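import Fermat.Agent.ClassField.S55.Bridge.Sha2

/-!
# S55 bridge: `sha₂` as locally trivial classes of the diagram
-/

set_option autoImplicit false

noncomputable section

open CategoryTheory groupCohomology ExtCitation

namespace Fermat.Agent.ClassField.S55

open Idele IntermediateField

local notation "Qb" => AlgebraicClosure ℚ
local notation "Γ" => (AlgebraicClosure ℚ ≃ₐ[ℚ] AlgebraicClosure ℚ)

/-- Complex conjugation moves some algebraic number. -/
theorem exists_level_archimedean :
    ∃ F : IntermediateField ℚ Qb, FiniteDimensional ℚ F ∧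
      ∀ s ∈ archimedeanDecomposition, s ∈ F.fixingSubgroup → s = 1 := by
  obtain ⟨a, ha⟩ : ∃ a : Qb, complexConjugation a ≠ a := by
    obtain ⟨a, ha⟩ := IsAlgClosed.exists_pow_nat_eq (-1 : Qb) two_pos
    refine ⟨a, fun h => ?_⟩
    have h1 := complexEmbedding_complexConjugation a
    rw [h] at h1
    have h2 : complexEmbedding a ^ 2 = -1 := by rw [← map_pow, ha, map_neg, map_one]
    obtain ⟨r, hr⟩ := Complex.conj_eq_iff_real.mp h1.symm
    rw [hr, ← Complex.ofReal_pow] at h2
    have h3 : r ^ 2 = -1 := by exact_mod_cast h2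
    nlinarith [sq_nonneg r]
  refine ⟨ℚ⟮a⟯, adjoin.finiteDimensional (Algebra.IsIntegral.isIntegral a), fun s hs hsF => ?_⟩
  obtain ⟨n, rfl⟩ := Subgroup.mem_zpowers_iff.mp hs
  rcases Int.even_or_odd n with ⟨k, rfl⟩ | ⟨k, rfl⟩
  · rw [← two_mul, zpow_mul, zpow_ofNat, complexConjugation_sq, one_zpow]
  · exfalso
    refine ha ?_
    have h1 := (IntermediateField.mem_fixingSubgroup_iff _ _).mp hsF a (mem_adjoin_simple_self ℚ a)
    rwa [zpow_add, zpow_mul, zpow_ofNat, complexConjugation_sq, one_zpow, one_mul, zpow_one] at h1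

theorem natCard_archimedeanDecomposition_dvd : Nat.card archimedeanDecomposition ∣ 2 := by
  rw [archimedeanDecomposition, Nat.card_zpowers]
  exact orderOf_dvd_of_pow_eq_one complexConjugation_sq

/-- A 2-cocycle on a finite group of order prime to `p`, with values killed by `p`, is a
coboundary. -/
theorem exists_cochain_of_coprime {p : ℕ} (hp : 1 < p) {H M : Type*} [Group H] [Fintype H]
    [AddCommGroup M] (act : H → M →+ M) (hpM : ∀ m : M, p • m = 0)
    (hH : Nat.Coprime (Fintype.card H) p) (c : H × H → M)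
    (hc : ∀ g h j : H, act g (c (h, j)) - c (g * h, j) + c (g, h * j) - c (g, h) = 0) :
    ∃ y : H → M, ∀ g h, act g (y h) - y (g * h) + y g = c (g, h) := by
  obtain ⟨e, -, he⟩ := Nat.exists_mul_mod_eq_one_of_coprime hH hp
  have he' : ∀ m : M, (Fintype.card H * e) • m = m := fun m => by
    conv_lhs => rw [← Nat.mod_add_div (Fintype.card H * e) p, he, add_smul, one_smul, mul_smul]
    rw [hpM, add_zero]
  refine ⟨fun g => e • ∑ j : H, c (g, j), fun g h => ?_⟩
  have h1 : ∑ j : H, (act g (c (h, j)) - c (g * h, j) + c (g, h * j) - c (g, h)) = 0 :=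
    Finset.sum_eq_zero fun j _ => hc g h j
  rw [Finset.sum_sub_distrib, Finset.sum_add_distrib, Finset.sum_sub_distrib,
    Fintype.sum_equiv (Equiv.mulLeft h) (fun j => c (g, h * j)) (fun j => c (g, j)) (fun _ => rfl),
    Finset.sum_const, Finset.card_univ, ← map_sum, sub_eq_zero] at h1
  rw [map_nsmul, ← nsmul_sub, ← nsmul_add, h1, ← mul_smul, mul_comm, he']

variable {S : Finset Nat.Primes} {p : ℕ} [Fact p.Prime] {N P R Y : Type*} [AddCommGroup N]
  [DistribMulAction Γ N] [AddCommGroup P] [DistribMulAction Γ P] [AddCommGroup R]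
  [DistribMulAction Γ R] [MulAction Γ Y]

/-- The sha group in degree two has the order of the locally trivial classes of the diagram. -/
theorem natCard_sha2 {k : Type} [CommRing k] (M : Rep k Γ) [DistribMulAction Γ M]
    (hsmul : ∀ (g : Γ) (m : M), g • m = M.ρ g m) (D : Presentation S p M N P R Y)
    [Finite Y] [Module.Free ℤ R] [Module.Finite ℤ R] (hp2 : p ≠ 2) (hC : CTorsion S p) :
    Nat.card (sha₂ S M) = Nat.card ((D.ptDiagram hC).locTriv ⧸
      (D.ptDiagram hC).coboundaries.addSubgroupOf (D.ptDiagram hC).locTriv) := by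
  classical
  let T := D.ptDiagram hC
  have hcoc : ∀ c ∈ T.locTriv, ∀ g h j : Γ,
      g • c (h, j) - c (g * h, j) + c (g, h * j) - c (g, h) = 0 := by
    rintro c ⟨-, b, t, -, h1, -⟩ g h j
    refine T.i_inj (T.aP_inj ?_)
    simp only [map_add, map_sub, map_smul, _root_.map_zero]
    have e := fun x y => (congrFun h1 (x, y)).symm
    simp only [Function.comp_apply, d1] at e
    rw [e, e, e, e]
    simp only [smul_add, smul_sub, mul_smul, mul_assoc]
    abel
  have hmem : ∀ c ∈ T.locTriv, c ∈ levelCocyclesS₂ S M := fun c hc => by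
    refine ⟨(mem_cocycles₂_iff c).mpr fun g h j => ?_, (smooth₂_iff c).mp hc.1⟩
    rw [← hsmul, ← sub_eq_zero, ← neg_eq_zero]
    rw [← hcoc c hc g h j]
    abel
  let Φ : T.locTriv →+ continuousH2S S M :=
    AddMonoidHom.mk' (fun c => continuousH2Sπ S M ⟨(c : Γ × Γ → M), hmem _ c.2⟩) fun a b => by
      rw [← _root_.map_add]
      rfl
  -- the kernel
  have hker : Φ.ker = T.coboundaries.addSubgroupOf T.locTriv := by
    ext c
    rw [AddMonoidHom.mem_ker, AddSubgroup.mem_addSubgroupOf]
    show continuousH2Sπ S M _ = 0 ↔ _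
    rw [continuousH2Sπ_eq_zero_iff, mem_levelCoboundariesS₂_iff]
    refine exists_congr fun m => and_congr (smooth₁_iff m).symm ?_
    refine Eq.congr ?_ rfl
    ext ⟨g, h⟩
    simp only [d₁₂_hom_apply, d1, hsmul]
  -- the image
  have hrange : ∀ z : continuousH2S S M, z ∈ Φ.range ↔ z ∈ sha₂ S M := by
    intro z
    obtain ⟨⟨c, hc⟩, rfl⟩ := Submodule.mkQ_surjective _ z
    have hc' := (mem_cocycles₂_iff c).mp hc.1
    have hcc : ∀ g h j : Γ, g • c (h, j) - c (g * h, j) + c (g, h * j) - c (g, h) = 0 := by
      intro g h j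
      rw [hsmul, ← neg_eq_zero, ← sub_eq_zero.mpr (hc' g h j)]
      abel
    have hloc : ∀ v : extArithIndex S,
        locRes₂S S M (extArithLoc S v) (continuousH2Sπ S M ⟨c, hc⟩) = 0 ↔
        ∃ x : extArithLocalGroups S v → M, IsLevelConstant₁ (extArithLoc S v) x ∧
          ∀ g h, M.ρ (extArithLoc S v g) (x h) - x (g * h) + x g =
            c (extArithLoc S v g, extArithLoc S v h) := by
      intro v
      refine (continuousH2π_eq_zero_iff (extArithLoc S v) _ _).trans ?_
      rw [mem_levelCoboundaries₂_iff]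
      refine exists_congr fun x => and_congr_right fun _ => ?_
      rw [funext_iff, Prod.forall]
      refine forall_congr' fun g => forall_congr' fun h => ?_
      rw [d₁₂_hom_apply]
      rfl
    constructor
    · rintro ⟨a, ha⟩
      rw [← ha]
      refine LinearMap.mem_ker.mpr (funext fun v => ?_)
      obtain ⟨⟨a, haT⟩, rfl⟩ : ∃ a' : T.locTriv, a' = a := ⟨a, rfl⟩
      rw [locTotal₂S_apply, Pi.zero_apply]
      refine (continuousH2π_eq_zero_iff (extArithLoc S v) _ _).mpr
        ((mem_levelCoboundaries₂_iff _ _ _).mpr ?_)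
      suffices h : ∃ x : extArithLocalGroups S v → M, IsLevelConstant₁ (extArithLoc S v) x ∧
          ∀ g h, M.ρ (extArithLoc S v g) (x h) - x (g * h) + x g =
            a (extArithLoc S v g, extArithLoc S v h) by
        obtain ⟨x, hx₁, hx₂⟩ := h
        exact ⟨x, hx₁, funext fun gh => (d₁₂_hom_apply _ _ _).trans (hx₂ gh.1 gh.2)⟩
      rcases v with u | q
      · obtain ⟨F, hF, hF'⟩ := exists_level_archimedean
        have : Finite archimedeanDecomposition := Nat.finite_of_card_ne_zero fun h => by
          have := natCard_archimedeanDecomposition_dvd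
          rw [h] at this
          simp at this
        have := Fintype.ofFinite archimedeanDecomposition
        have hp : p.Prime := Fact.out
        obtain ⟨y, hy⟩ := exists_cochain_of_coprime hp.one_lt
          (H := archimedeanDecomposition) (fun g => (M.ρ (g : Γ)).toAddMonoidHom) D.p_smul_M
          (by
            rw [← Nat.card_eq_fintype_card]
            exact Nat.Coprime.of_dvd_left natCard_archimedeanDecomposition_dvd
              ((Nat.coprime_primes Nat.prime_two hp).mpr (Ne.symm hp2)))
          (fun x => a ((x.1 : Γ), (x.2 : Γ)))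
          (fun g h j => by
            have h1 := hcoc a haT (g : Γ) (h : Γ) (j : Γ)
            rw [hsmul] at h1
            exact h1)
        refine ⟨y, ⟨F, hF, fun g s hs => ?_⟩, ?_⟩
        · obtain rfl : (s : archimedeanDecomposition) = (1 : archimedeanDecomposition) :=
            Subtype.ext (hF' _ s.2 hs)
          exact congrArg y (mul_one (M := archimedeanDecomposition) g)
        · exact hy
      · obtain ⟨y, ⟨F, hF, hys⟩, hy⟩ := D.isLocalCoboundary_of_mem_locTriv hC haT q.2
        refine ⟨y, ⟨F, hF, hys⟩, ?_⟩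
        intro g h
        rw [← hsmul]
        exact hy g h
    · intro hz
      have hz' := congrFun (LinearMap.mem_ker.mp hz)
      have hcT : c ∈ T.locTriv := D.mem_locTriv_of_isLocalCoboundary hC ((smooth₂_iff c).mpr hc.2)
        hcc fun q hq => by
          obtain ⟨x, ⟨F, hF, hxs⟩, hx⟩ := (hloc (Sum.inr ⟨q, hq⟩)).mp (hz' (Sum.inr ⟨q, hq⟩))
          refine ⟨x, ⟨F, hF, hxs⟩, fun g h => ?_⟩
          rw [hsmul]
          exact hx g h
      exact ⟨⟨c, hcT⟩, rfl⟩
  calc Nat.card (sha₂ S M) = Nat.card Φ.range := Nat.card_congr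
        (Equiv.subtypeEquivRight fun z => (hrange z).symm)
    _ = _ := by
        rw [← Nat.card_congr (QuotientAddGroup.quotientKerEquivRange Φ).toEquiv, hker]

end Fermat.Agent.ClassField.S55
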